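import Fermat.Agent.S05.Inertia
import Fermat.Statements.S05

/-!
# The Frey curve: inertia at `q ≠ 2, p` acts trivially on `p`-torsion
-/

set_option autoImplicit false

namespace Fermat.Agent.S05lib

open WeierstrassCurve WeierstrassCurve.Affine

open scoped Pointwise in
lemma inertia_props {K L : Type*} [Field K] [Field L] [Algebra K L] (A : ValuationSubring L)
    (σ : L ≃ₐ[K] L) (hσ : σ ∈ A.inertiaSubgroupIn K) :
    (∀ x, A.valuation (σ x) ≤ 1 ↔ A.valuation x ≤ 1) ∧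
      (∀ x, A.valuation x ≤ 1 → A.valuation (σ x - x) < 1) := by
  obtain ⟨τ, hτ, rfl⟩ := Subgroup.mem_map.mp hσ
  have hstab : (τ : L ≃ₐ[K] L) • A = A := τ.2
  constructor
  · intro x
    rw [A.valuation_le_one_iff, A.valuation_le_one_iff]
    have := ValuationSubring.smul_mem_pointwise_smul_iff (g := (τ : L ≃ₐ[K] L)) (S := A) (x := x)
    rw [hstab] at this
    exact this
  · intro x hx
    rw [A.valuation_le_one_iff] at hx
    have h1 : τ • IsLocalRing.residue A ⟨x, hx⟩ = IsLocalRing.residue A ⟨x, hx⟩ := by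
      have := congrArg (fun f => f (IsLocalRing.residue A ⟨x, hx⟩)) (MonoidHom.mem_ker.mp hτ)
      exact this
    rw [← IsLocalRing.ResidueField.residue_smul] at h1
    have h2 : IsLocalRing.residue A (τ • (⟨x, hx⟩ : A) - ⟨x, hx⟩) = 0 := by
      rw [map_sub, h1, sub_self]
    rw [IsLocalRing.residue_eq_zero_iff, A.valuation_lt_one_iff] at h2
    exact h2

section IntVal

variable {L : Type*} [Field L] (A : ValuationSubring L) {q : ℕ}

lemma val_int_le_one (n : ℤ) : A.valuation (n : L) ≤ 1 := by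
  rw [A.valuation_le_one_iff]; exact intCast_mem A n

lemma val_nat_le_one (n : ℕ) : A.valuation (n : L) ≤ 1 := by
  rw [A.valuation_le_one_iff]; exact natCast_mem A n

variable {A}

lemma val_q_lt_one (hA : A.LiesOverPrime q) : A.valuation (q : L) < 1 :=
  (A.mem_nonunits_iff).mp hA

lemma val_int_lt_one (hA : A.LiesOverPrime q) {n : ℤ} (hn : (q : ℤ) ∣ n) :
    A.valuation (n : L) < 1 := by
  obtain ⟨m, rfl⟩ := hn
  push_cast
  rw [map_mul]
  exact lt_of_le_of_lt (mul_le_of_le_one_right' (val_int_le_one A m)) (val_q_lt_one hA)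

lemma val_int_eq_one (hA : A.LiesOverPrime q) (hq : q.Prime) {n : ℤ} (hn : ¬ (q : ℤ) ∣ n) :
    A.valuation (n : L) = 1 := by
  refine le_antisymm (val_int_le_one A n) (not_lt.mp fun hlt => ?_)
  have hcop : IsCoprime n (q : ℤ) := by
    rw [isCoprime_comm]
    exact (Nat.prime_iff_prime_int.mp hq).coprime_iff_not_dvd.mpr hn
  obtain ⟨u, w, huw⟩ := hcop
  have h1 : (u : L) * n + w * q = 1 := by exact_mod_cast congrArg (Int.cast : ℤ → L) huw
  have h2 : A.valuation ((u : L) * n + w * q) < 1 := by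
    refine lt_of_le_of_lt (A.valuation.map_add _ _) (max_lt ?_ ?_)
    · rw [map_mul]; exact lt_of_le_of_lt (mul_le_of_le_one_left' (val_int_le_one A u)) hlt
    · rw [map_mul]
      exact lt_of_le_of_lt (mul_le_of_le_one_left' (val_int_le_one A w)) (val_q_lt_one hA)
  rw [h1, map_one] at h2
  exact lt_irrefl _ h2

lemma val_prime_eq_one (hA : A.LiesOverPrime q) (hq : q.Prime) {r : ℕ} (hr : r.Prime)
    (hne : q ≠ r) : A.valuation (r : L) = 1 := by
  have : ¬ (q : ℤ) ∣ (r : ℤ) := by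
    rw [Int.natCast_dvd_natCast]
    exact fun h => hne ((Nat.prime_dvd_prime_iff_eq hq hr).mp h)
  simpa using val_int_eq_one (L := L) hA hq this

end IntVal

section Frey

variable (P : FreyPackage)

local notation "Kb" => AlgebraicClosure ℚ

lemma frey_a₁ : (P.freyCurve⁄Kb).a₁ = 1 := by
  simp [FreyPackage.freyCurve]

lemma frey_a₂ : (P.freyCurve⁄Kb).a₂ = ((P.b : Kb) ^ P.p - 1 - (P.a : Kb) ^ P.p) / 4 := by
  simp [FreyPackage.freyCurve]

lemma frey_a₃ : (P.freyCurve⁄Kb).a₃ = 0 := by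
  simp [FreyPackage.freyCurve]

lemma frey_a₄ : (P.freyCurve⁄Kb).a₄ = -((P.a : Kb) ^ P.p) * (P.b : Kb) ^ P.p / 16 := by
  simp [FreyPackage.freyCurve]

lemma frey_a₆ : (P.freyCurve⁄Kb).a₆ = 0 := by
  simp [FreyPackage.freyCurve]

lemma frey_FLT : (P.a : Kb) ^ P.p + (P.b : Kb) ^ P.p = (P.c : Kb) ^ P.p := by
  exact_mod_cast congrArg (Int.cast : ℤ → Kb) P.hFLT

lemma frey_Δ : (P.freyCurve⁄Kb).Δ
    = ((P.a : Kb) ^ P.p * (P.b : Kb) ^ P.p * (P.c : Kb) ^ P.p) ^ 2 / 256 := by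
  simp only [WeierstrassCurve.Δ, b₂, b₄, b₆, b₈, frey_a₁, frey_a₂, frey_a₃, frey_a₄, frey_a₆]
  rw [← frey_FLT]
  ring

lemma frey_Δ_ne_zero : (P.freyCurve⁄Kb).Δ ≠ 0 := by
  rw [frey_Δ]
  have ha : (P.a : Kb) ≠ 0 := by exact_mod_cast P.ha0
  have hb : (P.b : Kb) ≠ 0 := by exact_mod_cast P.hb0
  have hc : (P.c : Kb) ≠ 0 := by exact_mod_cast P.hc0
  exact div_ne_zero (pow_ne_zero 2 (mul_ne_zero (mul_ne_zero (pow_ne_zero _ ha) (pow_ne_zero _ hb))
    (pow_ne_zero _ hc))) (by norm_num)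

lemma not_dvd_of_gcd_eq_one {q : ℕ} (hq : q.Prime) {m n : ℤ} (hg : gcd m n = 1)
    (hm : (q : ℤ) ∣ m) : ¬ (q : ℤ) ∣ n := by
  intro hn
  have h1 : (q : ℤ) ∣ 1 := hg ▸ dvd_gcd hm hn
  have h2 : (q : ℤ) ≤ 1 := Int.le_of_dvd one_pos h1
  have := hq.two_le
  omega

variable {P}

local notation "Wk" => (FreyPackage.freyCurve P)⁄Kb

/-- **Main theorem**: inertia at `q ≠ 2, p` fixes the `p`-torsion of the Frey curve. -/
theorem frey_inertia_trivial {q : ℕ} (hq : q.Prime) (hq2 : q ≠ 2) (hqp : q ≠ P.p)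
    (A : ValuationSubring Kb) (hA : A.LiesOverPrime q) (σ : Kb ≃ₐ[ℚ] Kb)
    (hσ : σ ∈ A.inertiaSubgroupIn ℚ) (x : (P.freyCurve⁄Kb).Point) (hx : P.p • x = 0) :
    σ • x = x := by
  obtain ⟨hσ1, hσ2⟩ := inertia_props A σ hσ
  set v := A.valuation with hv
  set Ak : Kb := (P.a : Kb) ^ P.p with hAk
  set Bk : Kb := (P.b : Kb) ^ P.p with hBk
  set Ck : Kb := (P.c : Kb) ^ P.p with hCk
  have hFLT : Ak + Bk = Ck := frey_FLT P
  have h2 : v 2 = 1 := by simpa using val_prime_eq_one (L := Kb) hA hq Nat.prime_two hq2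
  have hpv : v (P.p : Kb) = 1 := val_prime_eq_one hA hq P.pp hqp
  have hint : ∀ n : ℕ, v (n : Kb) ≤ 1 := val_nat_le_one A
  have h4 : v (4 : Kb) = 1 := by
    have : (4 : Kb) = 2 * 2 := by norm_num
    rw [this, map_mul, h2, one_mul]
  have h16 : v (16 : Kb) = 1 := by
    have : (16 : Kb) = 4 * 4 := by norm_num
    rw [this, map_mul, h4, one_mul]
  have hAle : v Ak ≤ 1 := by rw [hAk, map_pow]; exact pow_le_one' (val_int_le_one A _) _
  have hBle : v Bk ≤ 1 := by rw [hBk, map_pow]; exact pow_le_one' (val_int_le_one A _) _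
  have hp0 : P.p ≠ 0 := P.hp0
  have a1 : (Wk).a₁ = 1 := frey_a₁ P
  have a2 : (Wk).a₂ = (Bk - 1 - Ak) / 4 := frey_a₂ P
  have a3 : (Wk).a₃ = 0 := frey_a₃ P
  have a4 : (Wk).a₄ = -Ak * Bk / 16 := frey_a₄ P
  have a6 : (Wk).a₆ = 0 := frey_a₆ P
  have hW : IntegralCoeffs Wk v := by
    refine ⟨by rw [a1, map_one], ?_, by rw [a3, map_zero]; exact zero_le, ?_,
      by rw [a6, map_zero]; exact zero_le⟩
    · rw [a2, map_div₀, h4, div_one]
      exact (v.map_sub _ _).trans (max_le ((v.map_sub _ _).trans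
        (max_le hBle (by rw [map_one]))) hAle)
    · rw [a4, map_div₀, h16, div_one, map_mul, Valuation.map_neg]
      exact mul_le_one' hAle hBle
  -- Galois invariance
  have hσint : ∀ n : ℤ, σ (n : Kb) = n := fun n => map_intCast σ n
  have hσA : σ Ak = Ak := by rw [hAk, map_pow, hσint]
  have hσB : σ Bk = Bk := by rw [hBk, map_pow, hσint]
  have s1 : σ (Wk).a₁ = (Wk).a₁ := by rw [a1, map_one]
  have s2 : σ (Wk).a₂ = (Wk).a₂ := by
    rw [a2]; simp only [map_div₀, map_sub, map_one, map_ofNat, hσA, hσB]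
  have s3 : σ (Wk).a₃ = (Wk).a₃ := by rw [a3, map_zero]
  have s4 : σ (Wk).a₄ = (Wk).a₄ := by
    rw [a4]; simp only [map_div₀, map_mul, map_neg, map_ofNat, hσA, hσB]
  have hact : ∀ x y (h : (Wk).Nonsingular x y), ∃ h',
      (Point.map (W' := P.freyCurve) σ.toAlgHom) (.some x y h)
        = .some ((σ : Kb →+* Kb) x) ((σ : Kb →+* Kb) y) h' :=
    fun x y h => ⟨_, Point.map_some (W' := P.freyCurve) σ.toAlgHom h⟩
  have main := fun (x₀ : Kb) (hx₀v : v x₀ ≤ 1)
      (hx₀ : 4 * x₀ ^ 3 + (Wk).b₂ * x₀ ^ 2 + 2 * (Wk).b₄ * x₀ + (Wk).b₆ = 0) (hσx₀ : σ x₀ = x₀) =>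
    inertia_trivial_on_torsion (W := Wk) (v := v) (x₀ := x₀) hW hx₀v h2 hint hx₀ (σ : Kb →+* Kb)
      (Point.map (W' := P.freyCurve) σ.toAlgHom) hσ1 hσ2 hσx₀ hact s1 s2 s3 s4
      (frey_Δ_ne_zero P) P.hp_odd hpv
  have hvpow : ∀ n : ℤ, ¬ (q : ℤ) ∣ n → v ((n : Kb) ^ P.p) = 1 := by
    intro n hn; rw [map_pow, val_int_eq_one hA hq hn, one_pow]
  have hvpow' : ∀ n : ℤ, (q : ℤ) ∣ n → v ((n : Kb) ^ P.p) < 1 := by
    intro n hn; rw [map_pow]; exact pow_lt_one₀ zero_le (val_int_lt_one hA hn) hp0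
  rw [Point.algEquiv_smul_def]
  by_cases hc : (q : ℤ) ∣ P.c
  · -- multiplicative reduction, node at `x = a^p / 4`
    have hna : ¬ (q : ℤ) ∣ P.a := not_dvd_of_gcd_eq_one hq (by rw [gcd_comm]; exact P.hgcdac) hc
    have hx₀ : 4 * (Ak / 4) ^ 3 + (Wk).b₂ * (Ak / 4) ^ 2 + 2 * (Wk).b₄ * (Ak / 4) + (Wk).b₆ = 0 := by
      simp only [b₂, b₄, b₆, a1, a2, a3, a4, a6]; ring
    have hab : abar Wk (Ak / 4) = Ak + Ck := by
      simp only [abar, b₂, a1, a2]; rw [← hFLT]; ring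
    have hbb : bbar Wk (Ak / 4) = Ak * Ck / 16 := by
      simp only [bbar, b₂, b₄, a1, a2, a3, a4]; rw [← hFLT]; ring
    refine main (Ak / 4) (by rw [map_div₀, h4, div_one]; exact hAle) hx₀
      (by simp only [map_div₀, map_ofNat, hσA]) (Or.inr ⟨?_, ((P.a * P.c : ℤ) : Kb), ?_, ?_, ?_, ?_⟩)
      x hx
    · rw [hab, Valuation.map_add_eq_of_lt_left v (by rw [hvpow _ hna]; exact hvpow' _ hc)]
      exact hvpow _ hna
    · exact_mod_cast mul_ne_zero P.ha0 P.hc0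
    · exact val_int_lt_one hA (Dvd.dvd.mul_left hc _)
    · exact hσint _
    · rw [hbb, map_div₀, h16, div_one, ← map_pow]
      congr 1
      push_cast
      rw [mul_pow]
  · by_cases hab' : (q : ℤ) ∣ P.a * P.b
    · -- multiplicative reduction, node at `x = 0`
      have hx₀ : 4 * (0 : Kb) ^ 3 + (Wk).b₂ * 0 ^ 2 + 2 * (Wk).b₄ * 0 + (Wk).b₆ = 0 := by
        simp only [b₆, a3, a6]; ring
      have hab : abar Wk 0 = Bk - Ak := by
        simp only [abar, b₂, a1, a2]; ring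
      have hbb : bbar Wk 0 = -(Ak * Bk) / 16 := by
        simp only [bbar, b₂, b₄, a1, a2, a3, a4]; ring
      refine main 0 (by rw [map_zero]; exact zero_le) hx₀ (map_zero _)
        (Or.inr ⟨?_, ((P.a * P.b : ℤ) : Kb), ?_, ?_, ?_, ?_⟩) x hx
      · rw [hab]
        rcases (Nat.prime_iff_prime_int.mp hq).dvd_or_dvd hab' with h | h
        · have hnb := not_dvd_of_gcd_eq_one hq P.hgcdab h
          rw [Valuation.map_sub_eq_of_lt_left v (by rw [hvpow _ hnb]; exact hvpow' _ h)]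
          exact hvpow _ hnb
        · have hna := not_dvd_of_gcd_eq_one hq (by rw [gcd_comm]; exact P.hgcdab) h
          rw [Valuation.map_sub_eq_of_lt_right v (by rw [hvpow _ hna]; exact hvpow' _ h)]
          exact hvpow _ hna
      · exact_mod_cast mul_ne_zero P.ha0 P.hb0
      · exact val_int_lt_one hA hab'
      · exact hσint _
      · rw [hbb, map_div₀, h16, div_one, Valuation.map_neg, ← map_pow]
        congr 1
        push_cast
        rw [mul_pow]
    · -- good reduction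
      have hna : ¬ (q : ℤ) ∣ P.a := fun h => hab' (Dvd.dvd.mul_right h _)
      have hnb : ¬ (q : ℤ) ∣ P.b := fun h => hab' (Dvd.dvd.mul_left h _)
      have hx₀ : 4 * (0 : Kb) ^ 3 + (Wk).b₂ * 0 ^ 2 + 2 * (Wk).b₄ * 0 + (Wk).b₆ = 0 := by
        simp only [b₆, a3, a6]; ring
      have hab : abar Wk 0 = Bk - Ak := by
        simp only [abar, b₂, a1, a2]; ring
      have hbb : bbar Wk 0 = -(Ak * Bk) / 16 := by
        simp only [bbar, b₂, b₄, a1, a2, a3, a4]; ring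
      refine main 0 (by rw [map_zero]; exact zero_le) hx₀ (map_zero _) (Or.inl ⟨?_, ?_⟩) x hx
      · rw [hbb, map_div₀, h16, div_one, Valuation.map_neg, map_mul, hvpow _ hna, hvpow _ hnb,
          one_mul]
      · have : abar Wk 0 ^ 2 - 64 * bbar Wk 0 = Ck ^ 2 := by
          rw [hab, hbb, ← hFLT]; ring
        rw [this, map_pow, hvpow _ hc, one_pow]

end Frey

end Fermat.Agent.S05lib
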