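import Fermat.Agent.S05.Mult

/-!
# The shifted x-coordinate on a Weierstrass curve is an `IsXMap`
-/

set_option autoImplicit false

namespace Fermat.Agent.S05lib

open WeierstrassCurve WeierstrassCurve.Affine

variable {L : Type*} [Field L] [CharZero L] [DecidableEq L] (W : WeierstrassCurve.Affine L) (x₀ : L)

/-- shifted x-coordinate -/
def Xc : W.Point → L
  | .zero => 0
  | .some x _ _ => x - x₀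

/-- the coefficient `ā` -/
def abar : L := W.b₂ + 12 * x₀

/-- the coefficient `b̄` -/
def bbar : L := (W.b₄ + x₀ * W.b₂ + 6 * x₀ ^ 2) / 2

@[simp] lemma Xc_some {x y : L} (h : W.Nonsingular x y) : Xc W x₀ (.some x y h) = x - x₀ := rfl

variable {W x₀}

lemma sum_identity {x₁ x₂ y₁ y₂ ℓ ℓ' : L}
    (h₁ : y₁ ^ 2 + W.a₁ * x₁ * y₁ + W.a₃ * y₁ = x₁ ^ 3 + W.a₂ * x₁ ^ 2 + W.a₄ * x₁ + W.a₆)
    (h₂ : y₂ ^ 2 + W.a₁ * x₂ * y₂ + W.a₃ * y₂ = x₂ ^ 3 + W.a₂ * x₂ ^ 2 + W.a₄ * x₂ + W.a₆)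
    (hx₀ : 4 * x₀ ^ 3 + W.b₂ * x₀ ^ 2 + 2 * W.b₄ * x₀ + W.b₆ = 0)
    (hℓ : ℓ * (x₁ - x₂) = y₁ - y₂) (hℓ' : ℓ' * (x₁ - x₂) = y₁ - W.negY x₂ y₂) :
    ((W.addX x₁ x₂ ℓ - x₀) + (W.addX x₁ x₂ ℓ' - x₀)) * ((x₁ - x₀) - (x₂ - x₀)) ^ 2
      = 2 * ((x₁ - x₀) + (x₂ - x₀)) * ((x₁ - x₀) * (x₂ - x₀) + bbar W x₀)
        + abar W x₀ * ((x₁ - x₀) * (x₂ - x₀)) := by
  simp only [addX, negY, abar, bbar, b₂, b₄, b₆] at *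
  linear_combination (ℓ * (x₁ - x₂) + (y₁ - y₂) + W.a₁ * (x₁ - x₂)) * hℓ
    + (ℓ' * (x₁ - x₂) + (y₁ - (-y₂ - W.a₁ * x₂ - W.a₃)) + W.a₁ * (x₁ - x₂)) * hℓ'
    + 2 * h₁ + 2 * h₂ + hx₀

lemma prod_identity {x₁ x₂ y₁ y₂ ℓ ℓ' : L} (hne : x₁ ≠ x₂)
    (h₁ : y₁ ^ 2 + W.a₁ * x₁ * y₁ + W.a₃ * y₁ = x₁ ^ 3 + W.a₂ * x₁ ^ 2 + W.a₄ * x₁ + W.a₆)
    (h₂ : y₂ ^ 2 + W.a₁ * x₂ * y₂ + W.a₃ * y₂ = x₂ ^ 3 + W.a₂ * x₂ ^ 2 + W.a₄ * x₂ + W.a₆)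
    (hx₀ : 4 * x₀ ^ 3 + W.b₂ * x₀ ^ 2 + 2 * W.b₄ * x₀ + W.b₆ = 0)
    (hℓ : ℓ * (x₁ - x₂) = y₁ - y₂) (hℓ' : ℓ' * (x₁ - x₂) = y₁ - W.negY x₂ y₂) :
    (W.addX x₁ x₂ ℓ - x₀) * (W.addX x₁ x₂ ℓ' - x₀) * ((x₁ - x₀) - (x₂ - x₀)) ^ 2
      = ((x₁ - x₀) * (x₂ - x₀) - bbar W x₀) ^ 2 := by
  have hD : (x₁ - x₂) ^ 2 ≠ 0 := pow_ne_zero 2 (sub_ne_zero.mpr hne)
  apply mul_left_cancel₀ hD
  simp only [addX, negY, abar, bbar, b₂, b₄, b₆] at *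
  -- abbreviations
  set D := x₁ - x₂ with hDdef
  set n := y₁ - y₂ with hn
  set n' := y₁ - (-y₂ - W.a₁ * x₂ - W.a₃) with hn'
  set κ := W.a₂ + x₁ + x₂ + x₀ with hκ
  set κ' := κ + W.a₁ ^ 2 / 4 with hκ'
  set U₁ := y₁ ^ 2 + W.a₁ * x₁ * y₁ + W.a₃ * y₁ + (W.a₁ * x₁ + W.a₃) ^ 2 / 4 with hU₁
  set U₂ := y₂ ^ 2 + W.a₁ * x₂ * y₂ + W.a₃ * y₂ + (W.a₁ * x₂ + W.a₃) ^ 2 / 4 with hU₂
  set S₁ := x₁ ^ 3 + W.a₂ * x₁ ^ 2 + W.a₄ * x₁ + W.a₆ + (W.a₁ * x₁ + W.a₃) ^ 2 / 4 with hS₁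
  set S₂ := x₂ ^ 3 + W.a₂ * x₂ ^ 2 + W.a₄ * x₂ + W.a₆ + (W.a₁ * x₂ + W.a₃) ^ 2 / 4 with hS₂
  linear_combination
    (ℓ * D + n + W.a₁ * D) * ((ℓ' ^ 2 + W.a₁ * ℓ' - W.a₂ - x₁ - x₂ - x₀) * D ^ 2) * hℓ
    + (n ^ 2 + W.a₁ * n * D - κ * D ^ 2) * (ℓ' * D + n' + W.a₁ * D) * hℓ'
    + ((U₁ - U₂ + S₁ - S₂) - 2 * κ' * D ^ 2) * h₁
    + (-(U₁ - U₂ + S₁ - S₂) - 2 * κ' * D ^ 2) * h₂
    - κ' * D ^ 2 * hx₀

lemma dbl_identity {x y ℓ : L}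
    (h : y ^ 2 + W.a₁ * x * y + W.a₃ * y = x ^ 3 + W.a₂ * x ^ 2 + W.a₄ * x + W.a₆)
    (hx₀ : 4 * x₀ ^ 3 + W.b₂ * x₀ ^ 2 + 2 * W.b₄ * x₀ + W.b₆ = 0)
    (hℓ : ℓ * (y - W.negY x y) = 3 * x ^ 2 + 2 * W.a₂ * x + W.a₄ - W.a₁ * y) :
    (W.addX x x ℓ - x₀) * ((x - x₀) * (4 * (x - x₀) ^ 2 + abar W x₀ * (x - x₀) + 4 * bbar W x₀))
      = ((x - x₀) ^ 2 - bbar W x₀) ^ 2 := by
  simp only [addX, negY, abar, bbar, b₂, b₄, b₆] at *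
  set ψ := y - (-y - W.a₁ * x - W.a₃) with hψ
  set m₁ := 3 * x ^ 2 + 2 * W.a₂ * x + W.a₄ - W.a₁ * y with hm₁
  set X2 := ℓ ^ 2 + W.a₁ * ℓ - W.a₂ - x - x - x₀ with hX2
  linear_combination (ℓ * ψ + m₁ + W.a₁ * ψ) * hℓ
    + (-4 * X2 - ((W.a₁ ^ 2 + 4 * W.a₂ + 12 * x₀) + 8 * (x - x₀))) * h
    + (-X2 - ((W.a₁ ^ 2 + 4 * W.a₂ + 12 * x₀) / 4 + 2 * (x - x₀))) * hx₀

lemma psi_sq_identity {x y : L}
    (h : y ^ 2 + W.a₁ * x * y + W.a₃ * y = x ^ 3 + W.a₂ * x ^ 2 + W.a₄ * x + W.a₆)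
    (hx₀ : 4 * x₀ ^ 3 + W.b₂ * x₀ ^ 2 + 2 * W.b₄ * x₀ + W.b₆ = 0) :
    (y - W.negY x y) ^ 2
      = (x - x₀) * (4 * (x - x₀) ^ 2 + abar W x₀ * (x - x₀) + 4 * bbar W x₀) := by
  simp only [negY, abar, bbar, b₂, b₄, b₆] at *
  linear_combination 4 * h + hx₀

/-- the shifted x-coordinate is an `IsXMap`. -/
theorem isXMap_Xc (hx₀ : 4 * x₀ ^ 3 + W.b₂ * x₀ ^ 2 + 2 * W.b₄ * x₀ + W.b₆ = 0) :
    IsXMap (Xc W x₀) (abar W x₀) (bbar W x₀) where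
  neg := by
    rintro (_ | ⟨x, y, h⟩)
    · rfl
    · rfl
  inj := by
    rintro (_ | ⟨x₁, y₁, h₁⟩) (_ | ⟨x₂, y₂, h₂⟩) hg hh hX
    · exact absurd rfl hg
    · exact absurd rfl hg
    · exact absurd rfl hh
    · exact Point.X_eq_iff.mp (sub_left_injective hX)
  sum := by
    rintro (_ | ⟨x₁, y₁, h₁⟩) (_ | ⟨x₂, y₂, h₂⟩) hg hh hX
    · exact absurd rfl hg
    · exact absurd rfl hg
    · exact absurd rfl hh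
    · have hne : x₁ ≠ x₂ := fun h => hX (by simp [h])
      have hD : x₁ - x₂ ≠ 0 := sub_ne_zero.mpr hne
      rw [sub_eq_add_neg, Point.neg_some, Point.add_of_X_ne hne, Point.add_of_X_ne hne]
      simp only [Xc_some]
      refine sum_identity ((W.equation_iff _ _).mp h₁.1) ((W.equation_iff _ _).mp h₂.1) hx₀ ?_ ?_
      · rw [slope_of_X_ne hne, div_mul_cancel₀ _ hD]
      · rw [slope_of_X_ne hne, div_mul_cancel₀ _ hD]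
  prod := by
    rintro (_ | ⟨x₁, y₁, h₁⟩) (_ | ⟨x₂, y₂, h₂⟩) hg hh hX
    · exact absurd rfl hg
    · exact absurd rfl hg
    · exact absurd rfl hh
    · have hne : x₁ ≠ x₂ := fun h => hX (by simp [h])
      have hD : x₁ - x₂ ≠ 0 := sub_ne_zero.mpr hne
      rw [sub_eq_add_neg, Point.neg_some, Point.add_of_X_ne hne, Point.add_of_X_ne hne]
      simp only [Xc_some]
      refine prod_identity hne ((W.equation_iff _ _).mp h₁.1) ((W.equation_iff _ _).mp h₂.1)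
        hx₀ ?_ ?_
      · rw [slope_of_X_ne hne, div_mul_cancel₀ _ hD]
      · rw [slope_of_X_ne hne, div_mul_cancel₀ _ hD]
  dbl := by
    rintro (_ | ⟨x, y, h⟩) hg hgg
    · exact absurd rfl hg
    · have hy : y ≠ W.negY x y := fun hy => hgg (Point.add_self_of_Y_eq hy)
      rw [Point.add_self_of_Y_ne hy]
      simp only [Xc_some]
      refine dbl_identity ((W.equation_iff _ _).mp h.1) hx₀ ?_
      rw [slope_of_Y_ne rfl hy, div_mul_cancel₀ _ (sub_ne_zero.mpr hy)]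
  dbl_zero := by
    rintro (_ | ⟨x, y, h⟩) hg hgg
    · exact absurd rfl hg
    · have hy : y = W.negY x y := by
        by_contra hy
        rw [Point.add_self_of_Y_ne hy] at hgg
        exact Point.some_ne_zero _ hgg
      simp only [Xc_some]
      rw [← psi_sq_identity ((W.equation_iff _ _).mp h.1) hx₀, sub_eq_zero.mpr hy]
      simp

end Fermat.Agent.S05lib
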