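import Fermat.Agent.S05.Curve

/-!
# Inertia acts trivially on torsion: abstract version
-/

set_option autoImplicit false

namespace Fermat.Agent.S05lib

open WeierstrassCurve WeierstrassCurve.Affine

variable {K Γ : Type*} [Field K] [CharZero K] [DecidableEq K] [LinearOrderedCommGroupWithZero Γ]
variable {v : Valuation K Γ}

section NS

variable (h2 : v 2 = 1) (hint : ∀ n : ℕ, v (n : K) ≤ 1)

include h2 hint in
/-- the nonsingularity criterion -/
lemma ns_criterion {a b ξ : K} (ha : v a ≤ 1) (hb : v b ≤ 1) (hdisc : v (a ^ 2 - 64 * b) = 1)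
    (hξ : v ξ ≤ 1) (hor : v ξ = 1 ∨ v b = 1)
    (hd : v (ξ * (4 * ξ ^ 2 + a * ξ + 4 * b)) < 1) :
    v (12 * ξ ^ 2 + 2 * a * ξ + 4 * b) = 1 := by
  have h4 : v (4 : K) = 1 := by
    have : (4 : K) = 2 * 2 := by norm_num
    rw [this, map_mul, h2, one_mul]
  have h12 : v (12 : K) ≤ 1 := by simpa using hint 12
  have h16 : v (16 : K) ≤ 1 := by simpa using hint 16
  by_cases hξ1 : v ξ = 1
  · -- e is small
    have he : v (4 * ξ ^ 2 + a * ξ + 4 * b) < 1 := by
      rw [map_mul, hξ1, one_mul] at hd; exact hd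
    have h8 : v ((8 * ξ + a) ^ 2) = 1 := by
      have : (8 * ξ + a) ^ 2 = 16 * (4 * ξ ^ 2 + a * ξ + 4 * b) + (a ^ 2 - 64 * b) := by ring
      rw [this]
      have hlt : v (16 * (4 * ξ ^ 2 + a * ξ + 4 * b)) < v (a ^ 2 - 64 * b) := by
        rw [hdisc, map_mul]
        exact lt_of_le_of_lt (mul_le_of_le_one_left' h16) he
      rw [Valuation.map_add_eq_of_lt_right v hlt, hdisc]
    have h8' : v (8 * ξ + a) = 1 := by
      rw [map_pow] at h8
      exact (pow_eq_one_iff_of_nonneg zero_le (by norm_num)).mp h8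
    have : 12 * ξ ^ 2 + 2 * a * ξ + 4 * b = (4 * ξ ^ 2 + a * ξ + 4 * b) + ξ * (8 * ξ + a) := by ring
    rw [this]
    have hlt : v (4 * ξ ^ 2 + a * ξ + 4 * b) < v (ξ * (8 * ξ + a)) := by
      rw [map_mul, hξ1, h8', one_mul]; exact he
    rw [Valuation.map_add_eq_of_lt_right v hlt, map_mul, hξ1, h8', one_mul]
  · have hb1 : v b = 1 := hor.resolve_left hξ1
    have hξlt : v ξ < 1 := lt_of_le_of_ne hξ hξ1
    have hlt : v (12 * ξ ^ 2 + 2 * a * ξ) < v (4 * b) := by
      rw [map_mul, h4, hb1, one_mul]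
      have : 12 * ξ ^ 2 + 2 * a * ξ = (12 * ξ + 2 * a) * ξ := by ring
      rw [this, map_mul]
      refine lt_of_le_of_lt (mul_le_of_le_one_left' ?_) hξlt
      refine (v.map_add _ _).trans (max_le ?_ ?_)
      · rw [map_mul]; exact mul_le_one' h12 hξ
      · rw [map_mul, h2, one_mul]; exact ha
    rw [Valuation.map_add_eq_of_lt_right v hlt, map_mul, h4, hb1, one_mul]

end NS

variable (W : WeierstrassCurve.Affine K)

/-- integrality of the coefficients -/
structure IntegralCoeffs (v : Valuation K Γ) : Prop where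
  a₁ : v W.a₁ ≤ 1
  a₂ : v W.a₂ ≤ 1
  a₃ : v W.a₃ ≤ 1
  a₄ : v W.a₄ ≤ 1
  a₆ : v W.a₆ ≤ 1

variable {W}

lemma y_integral (hW : IntegralCoeffs W v) {x y : K} (hx : v x ≤ 1) (h : W.Equation x y) :
    v y ≤ 1 := by
  by_contra hcon
  have hy1 : 1 < v y := not_le.mp hcon
  have hy0 : y ≠ 0 := by
    intro h0; rw [h0, map_zero] at hy1; exact not_lt_of_ge zero_le hy1
  obtain ⟨e, he⟩ := exists_EQ (v := v) hy0
  have he0 : e < 0 := he.one_lt_iff.mp hy1
  have h' := (W.equation_iff x y).mp h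
  have hx' : GE v x 0 := GE_zero_iff.mpr hx
  have g1 := GE_zero_iff.mpr hW.a₁
  have g2 := GE_zero_iff.mpr hW.a₂
  have g3 := GE_zero_iff.mpr hW.a₃
  have g4 := GE_zero_iff.mpr hW.a₄
  have g6 := GE_zero_iff.mpr hW.a₆
  have key : y ^ 2 = (x * x ^ 2 + W.a₂ * x ^ 2 + W.a₄ * x + W.a₆) - (W.a₁ * x + W.a₃) * y := by
    linear_combination h'
  have hR : GE v ((x * x ^ 2 + W.a₂ * x ^ 2 + W.a₄ * x + W.a₆) - (W.a₁ * x + W.a₃) * y) e := by
    have t1 : GE v (x * x ^ 2) (0 + (0 + 0)) := hx'.mul hx'.sq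
    have t2 : GE v (W.a₂ * x ^ 2) (0 + (0 + 0)) := g2.mul hx'.sq
    have t3 : GE v (W.a₄ * x) (0 + 0) := g4.mul hx'
    have t4 : GE v (W.a₁ * x) (0 + 0) := g1.mul hx'
    have t5 : GE v ((W.a₁ * x + W.a₃) * y) (0 + e) :=
      ((t4.mono (by grind)).add g3).mul he.ge
    exact ((((t1.mono (by grind)).add (t2.mono (by grind))).add (t3.mono (by grind))).add
      (g6.mono (by grind))).sub (t5.mono (by grind))
  rw [← key] at hR
  have := hR.le_of_EQ he.sq
  grind

section Y1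

variable {x₀ : K} (hW : IntegralCoeffs W v) (hx₀v : v x₀ ≤ 1)
  (h2 : v 2 = 1) (hint : ∀ n : ℕ, v (n : K) ≤ 1)

include hW hx₀v hint in
lemma abar_integral : v (abar W x₀) ≤ 1 := by
  have g1 := GE_zero_iff.mpr hW.a₁
  have g2 := GE_zero_iff.mpr hW.a₂
  have g0 := GE_zero_iff.mpr hx₀v
  have h4 : GE v (4 : K) 0 := GE_zero_iff.mpr (by simpa using hint 4)
  have h12 : GE v (12 : K) 0 := GE_zero_iff.mpr (by simpa using hint 12)
  rw [← GE_zero_iff]
  simp only [abar, b₂]
  have t1 : GE v (W.a₁ ^ 2) (0 + 0) := g1.sq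
  have t2 : GE v (4 * W.a₂) (0 + 0) := h4.mul g2
  have t3 : GE v (12 * x₀) (0 + 0) := h12.mul g0
  exact ((t1.mono (by grind)).add (t2.mono (by grind))).add (t3.mono (by grind))

include hW hx₀v h2 hint in
lemma bbar_integral : v (bbar W x₀) ≤ 1 := by
  have g1 := GE_zero_iff.mpr hW.a₁
  have g2 := GE_zero_iff.mpr hW.a₂
  have g3 := GE_zero_iff.mpr hW.a₃
  have g4 := GE_zero_iff.mpr hW.a₄
  have g0 := GE_zero_iff.mpr hx₀v
  have h2' : EQ v (2 : K) 0 := EQ_zero_iff.mpr h2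
  have h4 : GE v (4 : K) 0 := GE_zero_iff.mpr (by simpa using hint 4)
  have h6 : GE v (6 : K) 0 := GE_zero_iff.mpr (by simpa using hint 6)
  rw [← GE_zero_iff]
  simp only [bbar, b₂, b₄]
  have t1 : GE v (2 * W.a₄) (0 + 0) := h2'.ge.mul g4
  have t2 : GE v (W.a₁ * W.a₃) (0 + 0) := g1.mul g3
  have t3 : GE v (W.a₁ ^ 2) (0 + 0) := g1.sq
  have t4 : GE v (4 * W.a₂) (0 + 0) := h4.mul g2
  have t5 : GE v (x₀ * (W.a₁ ^ 2 + 4 * W.a₂)) (0 + 0) :=
    g0.mul ((t3.mono (by grind)).add (t4.mono (by grind)))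
  have t6 : GE v (6 * x₀ ^ 2) (0 + (0 + 0)) := h6.mul g0.sq
  have t7 : GE v (2 * W.a₄ + W.a₁ * W.a₃ + x₀ * (W.a₁ ^ 2 + 4 * W.a₂) + 6 * x₀ ^ 2) 0 :=
    (((t1.mono (by grind)).add (t2.mono (by grind))).add (t5.mono (by grind))).add
      (t6.mono (by grind))
  exact (t7.div h2').mono (by grind)

include hW hx₀v in
lemma large_slope {x x' ℓ : K} (hx : v x ≤ 1) (hx' : v x' ≤ 1) (hℓ : 1 < v ℓ) :
    1 < v (W.addX x' x ℓ - x₀) := by
  have hℓ0 : ℓ ≠ 0 := by
    intro h0; rw [h0, map_zero] at hℓ; exact not_lt_of_ge zero_le hℓ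
  obtain ⟨e, he⟩ := exists_EQ (v := v) hℓ0
  have he0 : e < 0 := he.one_lt_iff.mp hℓ
  have g1 := GE_zero_iff.mpr hW.a₁
  have g2 := GE_zero_iff.mpr hW.a₂
  have g0 := GE_zero_iff.mpr hx₀v
  have gx := GE_zero_iff.mpr hx
  have gx' := GE_zero_iff.mpr hx'
  simp only [addX]
  have t1 : GE v (W.a₁ * ℓ) (0 + e) := g1.mul he.ge
  have : EQ v (ℓ ^ 2 + W.a₁ * ℓ - W.a₂ - x' - x - x₀) (e + e) :=
    ((((he.sq.add_of_GE t1 (by grind)).sub_of_GE g2 (by grind)).sub_of_GE gx' (by grind)).sub_of_GE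
      gx (by grind)).sub_of_GE g0 (by grind)
  rw [this.one_lt_iff]; grind

variable (hx₀ : 4 * x₀ ^ 3 + W.b₂ * x₀ ^ 2 + 2 * W.b₄ * x₀ + W.b₆ = 0)
  (σ : K →+* K) (act : W.Point →+ W.Point)
  (hσ1 : ∀ x, v (σ x) ≤ 1 ↔ v x ≤ 1) (hσ2 : ∀ x, v x ≤ 1 → v (σ x - x) < 1)
  (hσx₀ : σ x₀ = x₀)
  (hact : ∀ x y (h : W.Nonsingular x y), ∃ h', act (.some x y h) = .some (σ x) (σ y) h')

include hW hx₀v h2 hint hx₀ hσ1 hσ2 hact in
/-- integral points with nonsingular reduction are moved by inertia inside the kernel of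
reduction -/
lemma Y1_int {x y : K} (h : W.Nonsingular x y) (hξ : v (x - x₀) ≤ 1)
    (hNS : v ((x - x₀) * (4 * (x - x₀) ^ 2 + abar W x₀ * (x - x₀) + 4 * bbar W x₀)) < 1 →
      v (12 * (x - x₀) ^ 2 + 2 * abar W x₀ * (x - x₀) + 4 * bbar W x₀) = 1) :
    E1 (Xc W x₀) v (act (.some x y h) - .some x y h) := by
  have hX := isXMap_Xc hx₀
  have hab := abar_integral hW hx₀v hint
  have hbb := bbar_integral hW hx₀v h2 hint
  have hx : v x ≤ 1 := by
    have : x = (x - x₀) + x₀ := by ring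
    rw [this]; exact (v.map_add _ _).trans (max_le hξ hx₀v)
  have hy : v y ≤ 1 := y_integral hW hx h.1
  obtain ⟨h', hh'⟩ := hact x y h
  rw [hh']
  have hx' : v (σ x) ≤ 1 := (hσ1 x).mpr hx
  have hy' : v (σ y) ≤ 1 := (hσ1 y).mpr hy
  have hdx : v (σ x - x) < 1 := hσ2 x hx
  have hdy : v (σ y - y) < 1 := hσ2 y hy
  have heq := (W.equation_iff _ _).mp h.1
  have heq' := (W.equation_iff _ _).mp h'.1
  have h4 : v (4 : K) = 1 := by
    have : (4 : K) = 2 * 2 := by norm_num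
    rw [this, map_mul, h2, one_mul]
  have hψsq := psi_sq_identity heq hx₀
  -- if ψ is small then m₁ is a unit
  have hm₁ : v (y - W.negY x y) < 1 →
      v (3 * x ^ 2 + 2 * W.a₂ * x + W.a₄ - W.a₁ * y) = 1 := by
    intro hψ
    have hd : v ((x - x₀) * (4 * (x - x₀) ^ 2 + abar W x₀ * (x - x₀) + 4 * bbar W x₀)) < 1 := by
      rw [← hψsq, map_pow]; exact pow_lt_one₀ zero_le hψ (by norm_num)
    have hd' := hNS hd
    have hid : 4 * (3 * x ^ 2 + 2 * W.a₂ * x + W.a₄ - W.a₁ * y)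
        = (12 * (x - x₀) ^ 2 + 2 * abar W x₀ * (x - x₀) + 4 * bbar W x₀)
          - 2 * W.a₁ * (y - W.negY x y) := by
      simp only [negY, abar, bbar, b₂, b₄]; ring
    have hlt : v (2 * W.a₁ * (y - W.negY x y))
        < v (12 * (x - x₀) ^ 2 + 2 * abar W x₀ * (x - x₀) + 4 * bbar W x₀) := by
      rw [hd', map_mul, map_mul, h2, one_mul]
      exact lt_of_le_of_lt (mul_le_of_le_one_left' hW.a₁) hψ
    have := congrArg v hid
    rw [map_mul, h4, one_mul, Valuation.map_sub_eq_of_lt_left v hlt, hd'] at this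
    exact this
  by_cases hxx : σ x = x
  · rcases Y_eq_of_X_eq h'.1 h.1 hxx with hyy | hyy
    · left
      have : Point.some (σ x) (σ y) h' = Point.some x y h := by
        simp only [Point.some.injEq]; exact ⟨hxx, hyy⟩
      rw [this, sub_self]
    · have e1 : Point.some (σ x) (σ y) h' = -Point.some x y h := by
        rw [Point.neg_some]; simp only [Point.some.injEq]; exact ⟨hxx, hyy⟩
      have e2 : -Point.some x y h - Point.some x y h = -(Point.some x y h + Point.some x y h) := by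
        abel
      rw [e1, e2]
      apply hX.E1_neg
      by_cases hQQ : Point.some x y h + Point.some x y h = 0
      · exact Or.inl hQQ
      right
      have hdbl := hX.dbl _ (Point.some_ne_zero h) hQQ
      simp only [Xc_some] at hdbl
      have hψ : v (y - W.negY x y) < 1 := by
        rw [← hyy, ← Valuation.map_neg, neg_sub]; exact hdy
      have hd : v ((x - x₀) * (4 * (x - x₀) ^ 2 + abar W x₀ * (x - x₀) + 4 * bbar W x₀)) < 1 := by
        rw [← hψsq, map_pow]; exact pow_lt_one₀ zero_le hψ (by norm_num)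
      have hd' := hNS hd
      set ξ := x - x₀ with hξdef
      set d := ξ * (4 * ξ ^ 2 + abar W x₀ * ξ + 4 * bbar W x₀) with hddef
      have hN : v ((ξ ^ 2 - bbar W x₀) ^ 2) = 1 := by
        have hid : 16 * (ξ ^ 2 - bbar W x₀) ^ 2
            = (12 * ξ ^ 2 + 2 * abar W x₀ * ξ + 4 * bbar W x₀) ^ 2
              - (32 * ξ + 4 * abar W x₀) * d := by
          rw [hddef]; ring
        have h16 : v (16 : K) = 1 := by
          have : (16 : K) = 4 * 4 := by norm_num
          rw [this, map_mul, h4, one_mul]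
        have hco : v (32 * ξ + 4 * abar W x₀) ≤ 1 := by
          refine (v.map_add _ _).trans (max_le ?_ ?_)
          · rw [map_mul]; exact mul_le_one' (by simpa using hint 32) hξ
          · rw [map_mul, h4, one_mul]; exact hab
        have hlt : v ((32 * ξ + 4 * abar W x₀) * d)
            < v ((12 * ξ ^ 2 + 2 * abar W x₀ * ξ + 4 * bbar W x₀) ^ 2) := by
          rw [map_pow, hd', one_pow, map_mul]
          exact lt_of_le_of_lt (mul_le_of_le_one_left' hco) hd
        have := congrArg v hid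
        rw [map_mul, h16, one_mul, Valuation.map_sub_eq_of_lt_left v hlt] at this
        rw [this, map_pow, hd', one_pow]
      have hv := congrArg v hdbl
      rw [map_mul, hN] at hv
      by_contra hcon
      have hle : v (Xc W x₀ (Point.some x y h + Point.some x y h)) ≤ 1 := not_lt.mp hcon
      have : v (Xc W x₀ (Point.some x y h + Point.some x y h)) * v d < 1 :=
        lt_of_le_of_lt (mul_le_of_le_one_left' hle) hd
      rw [hv] at this
      exact lt_irrefl _ this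
  · right
    rw [sub_eq_add_neg, Point.neg_some, Point.add_of_X_ne hxx]
    simp only [Xc_some]
    apply large_slope hW hx₀v hx hx'
    rw [slope_of_X_ne hxx]
    have hD0 : σ x - x ≠ 0 := sub_ne_zero.mpr hxx
    have hDpos : 0 < v (σ x - x) := zero_lt_iff.mpr ((v.ne_zero_iff).mpr hD0)
    by_cases hψ : v (y - W.negY x y) < 1
    · -- use the other expression for the slope
      have hm := hm₁ hψ
      have hrel : (σ y - y) * (σ y - W.negY x y)
          = (σ x - x) * (σ x ^ 2 + σ x * x + x ^ 2 + W.a₂ * (σ x + x) + W.a₄ - W.a₁ * σ y) := by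
        simp only [negY]; linear_combination heq' - heq
      have hn₂ : v (σ x ^ 2 + σ x * x + x ^ 2 + W.a₂ * (σ x + x) + W.a₄ - W.a₁ * σ y) = 1 := by
        have hid : σ x ^ 2 + σ x * x + x ^ 2 + W.a₂ * (σ x + x) + W.a₄ - W.a₁ * σ y
            = (3 * x ^ 2 + 2 * W.a₂ * x + W.a₄ - W.a₁ * y)
              + ((σ x - x) * (σ x + 2 * x + W.a₂) - W.a₁ * (σ y - y)) := by ring
        have hco : v (σ x + 2 * x + W.a₂) ≤ 1 := by
          refine (v.map_add _ _).trans (max_le ((v.map_add _ _).trans (max_le hx' ?_)) hW.a₂)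
          rw [map_mul, h2, one_mul]; exact hx
        have hlt : v ((σ x - x) * (σ x + 2 * x + W.a₂) - W.a₁ * (σ y - y))
            < v (3 * x ^ 2 + 2 * W.a₂ * x + W.a₄ - W.a₁ * y) := by
          rw [hm]
          refine lt_of_le_of_lt (v.map_sub _ _) (max_lt ?_ ?_)
          · rw [map_mul]; exact lt_of_le_of_lt (mul_le_of_le_one_right' hco) hdx
          · rw [map_mul]; exact lt_of_le_of_lt (mul_le_of_le_one_left' hW.a₁) hdy
        rw [hid, Valuation.map_add_eq_of_lt_left v hlt, hm]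
      have hv := congrArg v hrel
      rw [map_mul, map_mul, hn₂, mul_one] at hv
      rw [map_div₀, lt_div_iff₀ hDpos, one_mul, ← hv]
      have hn1pos : 0 < v (σ y - W.negY x y) := by
        rw [zero_lt_iff]; intro h0
        rw [h0, mul_zero] at hv
        exact hDpos.ne hv
      calc v (σ y - y) * v (σ y - W.negY x y) < 1 * v (σ y - W.negY x y) :=
            mul_lt_mul_of_pos_right hdy hn1pos
        _ = v (σ y - W.negY x y) := one_mul _
    · have hψle : v (y - W.negY x y) ≤ 1 := by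
        simp only [negY]
        have : y - (-y - W.a₁ * x - W.a₃) = 2 * y + W.a₁ * x + W.a₃ := by ring
        rw [this]
        refine (v.map_add _ _).trans (max_le ((v.map_add _ _).trans (max_le ?_ ?_)) hW.a₃)
        · rw [map_mul, h2, one_mul]; exact hy
        · rw [map_mul]; exact mul_le_one' hW.a₁ hx
      have hψ1 : v (y - W.negY x y) = 1 := le_antisymm hψle (not_lt.mp hψ)
      have hn₁ : v (σ y - W.negY x y) = 1 := by
        have : σ y - W.negY x y = (y - W.negY x y) + (σ y - y) := by ring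
        rw [this, Valuation.map_add_eq_of_lt_left v (by rw [hψ1]; exact hdy), hψ1]
      rw [map_div₀, hn₁, lt_div_iff₀ hDpos, one_mul]
      exact hdx

include hW hx₀v h2 hint hx₀ hσ1 hσ2 hσx₀ hact in
/-- points of the "identity component" are moved by inertia inside the kernel of reduction -/
lemma Y1 (Q : W.Point)
    (hQ : Q = 0 ∨ 1 < v (Xc W x₀ Q) ∨ (v (Xc W x₀ Q) ≤ 1 ∧
      (v (Xc W x₀ Q * (4 * Xc W x₀ Q ^ 2 + abar W x₀ * Xc W x₀ Q + 4 * bbar W x₀)) < 1 →
      v (12 * Xc W x₀ Q ^ 2 + 2 * abar W x₀ * Xc W x₀ Q + 4 * bbar W x₀) = 1))) :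
    E1 (Xc W x₀) v (act Q - Q) := by
  have hX := isXMap_Xc hx₀
  have hab := abar_integral hW hx₀v hint
  have hbb := bbar_integral hW hx₀v h2 hint
  rcases Q with _ | ⟨x, y, h⟩
  · left
    have : (Point.zero : W.Point) = 0 := rfl
    rw [this, map_zero, sub_self]
  rcases hQ with hQ | hQ | ⟨hQ, hNS⟩
  · exact absurd hQ (Point.some_ne_zero h)
  · apply hX.E1_sub hab hbb h2 hint _ (Or.inr hQ)
    obtain ⟨h', hh'⟩ := hact x y h
    rw [hh']
    right
    simp only [Xc_some] at hQ ⊢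
    have : σ x - x₀ = σ (x - x₀) := by rw [map_sub, hσx₀]
    rw [this]
    by_contra hcon
    exact absurd ((hσ1 _).mp (not_lt.mp hcon)) (not_le.mpr hQ)
  · exact Y1_int hW hx₀v h2 hint hx₀ σ act hσ1 hσ2 hact h hQ hNS

variable (hσa₁ : σ W.a₁ = W.a₁) (hσa₂ : σ W.a₂ = W.a₂) (hσa₃ : σ W.a₃ = W.a₃)
  (hσa₄ : σ W.a₄ = W.a₄)

include hσx₀ hσa₁ hσa₂ in
lemma sigma_abar : σ (abar W x₀) = abar W x₀ := by
  simp only [abar, b₂, map_add, map_mul, map_pow, hσa₁, hσa₂, hσx₀, map_ofNat]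

include hσx₀ hσa₁ hσa₂ hσa₃ hσa₄ in
lemma sigma_bbar : σ (bbar W x₀) = bbar W x₀ := by
  simp only [bbar, b₂, b₄, map_add, map_mul, map_pow, map_div₀, hσa₁, hσa₂, hσa₃, hσa₄, hσx₀,
    map_ofNat]

include h2 hx₀ hσ2 hσx₀ hact hσa₁ hσa₂ hσa₃ hσa₄ in
/-- existence of inertia-fixed points of a given level -/
lemma Y3 [IsAlgClosed K] (hΔ : W.Δ ≠ 0) (ha : v (abar W x₀) = 1) {g : K} (hσg : σ g = g)
    (hg1 : v g < 1) (hbg : v (bbar W x₀) < v g) :
    ∃ P' : W.Point, P' ≠ 0 ∧ Xc W x₀ P' = g ∧ act P' = P' := by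
  have hg0 : g ≠ 0 := by
    intro h0; rw [h0, map_zero] at hbg; exact not_lt_of_ge zero_le hbg
  have hgpos : 0 < v g := zero_lt_iff.mpr ((v.ne_zero_iff).mpr hg0)
  have h4 : v (4 : K) = 1 := by
    have : (4 : K) = 2 * 2 := by norm_num
    rw [this, map_mul, h2, one_mul]
  set u := abar W x₀ + (4 * g + 4 * bbar W x₀ / g) with hu
  obtain ⟨w, hw⟩ := IsAlgClosed.exists_pow_nat_eq u (n := 2) (by norm_num)
  have hvu : v u = 1 := by
    have hlt : v (4 * g + 4 * bbar W x₀ / g) < v (abar W x₀) := by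
      rw [ha]
      refine lt_of_le_of_lt (v.map_add _ _) (max_lt ?_ ?_)
      · rw [map_mul, h4, one_mul]; exact hg1
      · rw [map_div₀, map_mul, h4, one_mul, div_lt_one₀ hgpos]; exact hbg
    rw [hu, Valuation.map_add_eq_of_lt_left v hlt, ha]
  have hvw : v w = 1 := by
    have := congrArg v hw
    rw [map_pow, hvu] at this
    exact (pow_eq_one_iff_of_nonneg zero_le (by norm_num)).mp this
  have hσu : σ u = u := by
    rw [hu]
    simp only [map_add, map_mul, map_div₀, map_ofNat, hσg,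
      sigma_abar σ hσx₀ hσa₁ hσa₂, sigma_bbar σ hσx₀ hσa₁ hσa₂ hσa₃ hσa₄]
  have hσw : σ w = w := by
    have hsq : σ w ^ 2 = w ^ 2 := by rw [← map_pow, hw, hσu]
    rcases sq_eq_sq_iff_eq_or_eq_neg.mp hsq with h | h
    · exact h
    · exfalso
      have h1 := hσ2 w hvw.le
      have : σ w - w = -(2 * w) := by rw [h]; ring
      rw [this, Valuation.map_neg, map_mul, h2, hvw, one_mul] at h1
      exact lt_irrefl _ h1
  have hgw : (g * w) ^ 2 = g * (4 * g ^ 2 + abar W x₀ * g + 4 * bbar W x₀) := by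
    rw [mul_pow, hw, hu]; field_simp; ring
  set x' := x₀ + g with hx'
  set y' := (g * w - W.a₁ * x' - W.a₃) / 2 with hy'
  have heq : W.Equation x' y' := by
    rw [W.equation_iff]
    simp only [abar, bbar, b₂, b₄, b₆] at hgw hx₀
    rw [hy', hx']
    linear_combination (1 / 4 : K) * hgw - (1 / 4 : K) * hx₀
  have hns : W.Nonsingular x' y' := (W.equation_iff_nonsingular_of_Δ_ne_zero hΔ).mp heq
  refine ⟨.some x' y' hns, Point.some_ne_zero hns, by simp [hx'], ?_⟩
  obtain ⟨h', hh'⟩ := hact x' y' hns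
  rw [hh']
  have e1 : σ x' = x' := by rw [hx', map_add, hσx₀, hσg]
  have e2 : σ y' = y' := by
    rw [hy']
    simp only [map_sub, map_mul, map_div₀, map_ofNat, hσg, hσw, hσa₁, hσa₃, e1]
  simp only [Point.some.injEq]
  exact ⟨e1, e2⟩

include hW hx₀v h2 hint hx₀ hσ1 hσ2 hσx₀ hact hσa₁ hσa₂ hσa₃ hσa₄ in
/-- **Inertia acts trivially on `p`-torsion** (good reduction, or multiplicative reduction with
`p ∣ ord b̄`). -/
theorem inertia_trivial_on_torsion [IsAlgClosed K] (hΔ : W.Δ ≠ 0) {p : ℕ} (hodd : Odd p)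
    (hp : v (p : K) = 1)
    (hcase : (v (bbar W x₀) = 1 ∧ v (abar W x₀ ^ 2 - 64 * bbar W x₀) = 1) ∨
      (v (abar W x₀) = 1 ∧ ∃ β : K, β ≠ 0 ∧ v β < 1 ∧ σ β = β ∧ v (bbar W x₀) = v β ^ p))
    (P : W.Point) (hP : p • P = 0) : act P = P := by
  have hX := isXMap_Xc hx₀
  have hab := abar_integral hW hx₀v hint
  have hbb := bbar_integral hW hx₀v h2 hint
  by_cases hP0 : P = 0
  · rw [hP0, map_zero]
  -- it suffices to show that `act P - P` is in the kernel of reduction
  have hfin : E1 (Xc W x₀) v (act P - P) → act P = P := by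
    intro hE
    by_contra hne
    have hD0 : act P - P ≠ 0 := sub_ne_zero.mpr hne
    have hpD : p • (act P - P) = 0 := by
      rw [smul_sub, ← map_nsmul, hP, map_zero, sub_zero]
    have := hX.integral_of_torsion hab hbb h2 hint hD0 hp hpD
    exact absurd (hE.resolve_left hD0) (not_lt.mpr this)
  apply hfin
  have hPint : v (Xc W x₀ P) ≤ 1 := hX.integral_of_torsion hab hbb h2 hint hP0 hp hP
  have hY1 := Y1 hW hx₀v h2 hint hx₀ σ act hσ1 hσ2 hσx₀ hact
  rcases hcase with ⟨hb1, hdisc⟩ | ⟨ha1, β, hβ0, hβ1, hσβ, hbβ⟩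
  · exact hY1 P (Or.inr (Or.inr ⟨hPint,
      ns_criterion h2 hint hab hbb hdisc hPint (Or.inr hb1)⟩))
  · have hp0 : p ≠ 0 := by rintro rfl; simp at hodd
    have hblt : v (bbar W x₀) < 1 := by
      rw [hbβ]; exact pow_lt_one₀ zero_le hβ1 hp0
    have hb0 : bbar W x₀ ≠ 0 := by
      intro h0
      rw [h0, map_zero] at hbβ
      exact (pow_ne_zero p ((v.ne_zero_iff).mpr hβ0)) hbβ.symm
    have hdisc : v (abar W x₀ ^ 2 - 64 * bbar W x₀) = 1 := by
      have hlt : v (64 * bbar W x₀) < v (abar W x₀ ^ 2) := by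
        rw [map_pow, ha1, one_pow, map_mul]
        exact lt_of_le_of_lt (mul_le_of_le_one_left' (by simpa using hint 64)) hblt
      rw [Valuation.map_sub_eq_of_lt_left v hlt, map_pow, ha1, one_pow]
    -- a general fact for points of the identity component
    have hE0 : ∀ R : W.Point, E0 (Xc W x₀) v R → E1 (Xc W x₀) v (act R - R) := by
      intro R hR
      apply hY1 R
      rcases hR with hR | hR
      · exact Or.inl hR
      · rcases lt_or_eq_of_le hR with hR | hR
        · exact Or.inr (Or.inl hR)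
        · exact Or.inr (Or.inr ⟨hR.symm.le,
            ns_criterion h2 hint hab hbb hdisc hR.symm.le (Or.inl hR.symm)⟩)
    rcases lt_or_eq_of_le hPint with hlt | heq
    · obtain ⟨hbP, k, hk⟩ := hX.mult_torsion ha1 h2 hβ0 hβ1 hodd hbβ hP0 hP hlt
      have hσg : σ (β ^ (2 * k)) = β ^ (2 * k) := by rw [map_zpow₀, hσβ]
      obtain ⟨P', hP'0, hXP', hactP'⟩ := Y3 h2 hx₀ σ act hσ2 hσx₀ hact hσa₁ hσa₂ hσa₃ hσa₄ hΔ ha1
        hσg (by rw [← hk]; exact hlt) (by rw [← hk]; exact hbP)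
      have hsame := hX.same_level' ha1 h2 (P := P') (Q := P) hP'0 hP0 (by rw [hXP', hk])
        (by rw [hXP', ← hk]; exact hlt) (by rw [hXP', ← hk]; exact hbP) hb0
      rcases hsame with h | h
      · have := hE0 _ h
        rwa [map_add, hactP', add_sub_add_right_eq_sub] at this
      · have := hE0 _ h
        rwa [map_sub, hactP', sub_sub_sub_cancel_right] at this
    · exact hE0 P (Or.inr heq.symm.le)

end Y1

end Fermat.Agent.S05lib
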