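import Fermat.Agent.S05.XMap

/-!
# Multiplicative reduction: the component analysis, x-coordinates only
-/

set_option autoImplicit false

namespace Fermat.Agent.S05lib

variable {G L Γ : Type*} [AddCommGroup G] [Field L] [LinearOrderedCommGroupWithZero Γ]
variable {X : G → L} {a b : L} (hX : IsXMap X a b) {v : Valuation L Γ}

/-- points with nonsingular reduction (in the multiplicative case) -/
def E0 (X : G → L) (v : Valuation L Γ) (g : G) : Prop := g = 0 ∨ 1 ≤ v (X g)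

include hX in
lemma IsXMap.E0_neg {g : G} (hg : E0 X v g) : E0 X v (-g) := by
  rcases hg with rfl | hg
  · left; simp
  · right; rwa [hX.neg]

section E0

variable (ha : v a ≤ 1) (hb : v b < 1) (h2 : v 2 = 1)

include hX ha hb h2 in
lemma IsXMap.E0_add_generic {Q P : G} (hQ0 : Q ≠ 0) (hP0 : P ≠ 0) (hQ : 1 ≤ v (X Q))
    (hP : 1 ≤ v (X P)) (hne : X Q ≠ X P) :
    1 ≤ v (X (Q + P)) ∧ 1 ≤ v (X (Q - P)) := by
  have hx0 : X Q ≠ 0 := by
    intro h; rw [h, map_zero] at hQ; exact not_le_of_gt zero_lt_one hQ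
  have hc0 : X P ≠ 0 := by
    intro h; rw [h, map_zero] at hP; exact not_le_of_gt zero_lt_one hP
  obtain ⟨e₁, he₁⟩ := exists_EQ (v := v) hx0
  obtain ⟨e₂, he₂⟩ := exists_EQ (v := v) hc0
  have he₁0 : e₁ ≤ 0 := he₁.one_le_iff.mp hQ
  have he₂0 : e₂ ≤ 0 := he₂.one_le_iff.mp hP
  have hS := hX.sum Q P hQ0 hP0 hne
  have hPr := hX.prod Q P hQ0 hP0 hne
  set x := X Q with hx
  set c := X P with hc
  set r₁ := X (Q + P) with hr₁
  set r₂ := X (Q - P) with hr₂
  have ha' : GE v a 0 := GE_zero_iff.mpr ha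
  have h2' : EQ v 2 0 := EQ_zero_iff.mpr h2
  have hxc : EQ v (x * c) (e₁ + e₂) := he₁.mul he₂
  have hN : EQ v (x * c - b) (e₁ + e₂) := by
    unfold EQ
    have : v b < v (x * c) := by
      rw [hxc]; refine lt_of_lt_of_le hb ?_
      rw [← ex_zero, ex_le_ex]; grind
    rw [Valuation.map_sub_eq_of_lt_left v this, hxc]
  have hb' : GE v b 0 := GE_zero_iff.mpr hb.le
  have hN' : GE v (x * c + b) (e₁ + e₂) := hxc.ge.add (hb'.mono (by grind))
  have hd0 : x - c ≠ 0 := sub_ne_zero.mpr hne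
  obtain ⟨w, hw⟩ := exists_EQ (v := v) hd0
  have hD : GE v (x - c) (min e₁ e₂) :=
    (he₁.ge.mono (min_le_left _ _)).sub (he₂.ge.mono (min_le_right _ _))
  have hwge : min e₁ e₂ ≤ w := hD.le_of_EQ hw
  have hD' : GE v (x + c) (min e₁ e₂) :=
    (he₁.ge.mono (min_le_left _ _)).add (he₂.ge.mono (min_le_right _ _))
  have hNS : GE v (2 * (x + c) * (x * c + b) + a * (x * c)) (min e₁ e₂ + (e₁ + e₂)) := by
    have h1 : GE v (2 * (x + c) * (x * c + b)) (0 + min e₁ e₂ + (e₁ + e₂)) :=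
      (h2'.ge.mul hD').mul hN'
    have h3 : GE v (a * (x * c)) (0 + (e₁ + e₂)) := ha'.mul hxc.ge
    exact (h1.mono (by grind)).add (h3.mono (by grind))
  have hsum : r₁ + r₂ = (2 * (x + c) * (x * c + b) + a * (x * c)) / (x - c) ^ 2 := by
    rw [eq_div_iff (pow_ne_zero 2 hd0), hS]
  have hprod : r₁ * r₂ = (x * c - b) ^ 2 / (x - c) ^ 2 := by
    rw [eq_div_iff (pow_ne_zero 2 hd0), hPr]
  have hsumGE : GE v (r₁ + r₂) (min e₁ e₂ + (e₁ + e₂) - (w + w)) := by
    rw [hsum]; exact hNS.div hw.sq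
  have hprodEQ : EQ v (r₁ * r₂) ((e₁ + e₂) + (e₁ + e₂) - (w + w)) := by
    rw [hprod]; exact hN.sq.div hw.sq
  have hr1 : r₁ ≠ 0 := left_ne_zero_of_mul hprodEQ.ne_zero
  have hr2 : r₂ ≠ 0 := right_ne_zero_of_mul hprodEQ.ne_zero
  obtain ⟨f₁, hf₁⟩ := exists_EQ (v := v) hr1
  obtain ⟨f₂, hf₂⟩ := exists_EQ (v := v) hr2
  have hff : f₁ + f₂ = (e₁ + e₂) + (e₁ + e₂) - (w + w) := (hf₁.mul hf₂).unique hprodEQ
  constructor
  · rw [hf₁.one_le_iff]
    by_contra hcon
    have hlt : f₂ < f₁ := by grind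
    have := hsumGE.le_of_EQ (hf₂.add_of_GE' hf₁.ge hlt)
    grind
  · rw [hf₂.one_le_iff]
    by_contra hcon
    have hlt : f₁ < f₂ := by grind
    have := hsumGE.le_of_EQ (hf₁.add_of_GE hf₂.ge hlt)
    grind

include hX ha hb h2 in
lemma IsXMap.E0_dbl {P : G} (hP0 : P ≠ 0) (hP : 1 ≤ v (X P)) : E0 X v (P + P) := by
  by_cases hPP : P + P = 0
  · exact Or.inl hPP
  right
  have hc0 : X P ≠ 0 := by
    intro h; rw [h, map_zero] at hP; exact not_le_of_gt zero_lt_one hP
  obtain ⟨e, he⟩ := exists_EQ (v := v) hc0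
  have he0 : e ≤ 0 := he.one_le_iff.mp hP
  have hdbl := hX.dbl P hP0 hPP
  set c := X P with hc
  have ha' : GE v a 0 := GE_zero_iff.mpr ha
  have hb' : GE v b 0 := GE_zero_iff.mpr hb.le
  have h2' : EQ v 2 0 := EQ_zero_iff.mpr h2
  have h4' : EQ v 4 0 := by
    have := h2'.mul h2'
    norm_num at this; exact this
  have hN : EQ v (c ^ 2 - b) (e + e) := by
    unfold EQ
    have : v b < v (c ^ 2) := by
      rw [he.sq]; refine lt_of_lt_of_le hb ?_
      rw [← ex_zero, ex_le_ex]; grind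
    rw [Valuation.map_sub_eq_of_lt_left v this, he.sq]
  have hD : GE v (c * (4 * c ^ 2 + a * c + 4 * b)) (e + (e + e)) := by
    have h1 : GE v (4 * c ^ 2) (0 + (e + e)) := h4'.ge.mul he.sq.ge
    have h3 : GE v (a * c) (0 + e) := ha'.mul he.ge
    have h4 : GE v (4 * b) (0 + 0) := h4'.ge.mul hb'
    exact he.ge.mul (((h1.mono (by grind)).add (h3.mono (by grind))).add (h4.mono (by grind)))
  have hne : X (P + P) * (c * (4 * c ^ 2 + a * c + 4 * b)) ≠ 0 := by
    rw [hdbl]; exact hN.sq.ne_zero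
  obtain ⟨f, hf⟩ := exists_EQ (v := v) (left_ne_zero_of_mul hne)
  obtain ⟨δ, hδ⟩ := exists_EQ (v := v) (right_ne_zero_of_mul hne)
  have h1 : f + δ = (e + e) + (e + e) := by
    have := hf.mul hδ
    rw [hdbl] at this
    exact this.unique hN.sq
  have h3 : e + (e + e) ≤ δ := hD.le_of_EQ hδ
  rw [hf.one_le_iff]
  grind

include hX ha hb h2 in
lemma IsXMap.E0_add {Q P : G} (hQ : E0 X v Q) (hP : E0 X v P) : E0 X v (Q + P) := by
  by_cases hQ0 : Q = 0
  · subst hQ0; simpa using hP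
  by_cases hP0 : P = 0
  · subst hP0; simpa using hQ
  have hQ1 := hQ.resolve_left hQ0
  have hP1 := hP.resolve_left hP0
  by_cases hne : X Q = X P
  · rcases hX.inj Q P hQ0 hP0 hne with rfl | rfl
    · exact hX.E0_dbl ha hb h2 hQ0 hQ1
    · left; simp
  · exact Or.inr (hX.E0_add_generic ha hb h2 hQ0 hP0 hQ1 hP1 hne).1

include hX ha hb h2 in
lemma IsXMap.E0_nsmul {P : G} (hP : E0 X v P) (n : ℕ) : E0 X v (n • P) := by
  induction n with
  | zero => left; simp
  | succ n ih => rw [succ_nsmul]; exact hX.E0_add ha hb h2 ih hP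

end E0

/-! ### The level function -/

open Classical in
/-- `ord` as a function (junk value at `0`). -/
noncomputable def ord (v : Valuation L Γ) (x : L) : Additive Γˣ :=
  if h : x = 0 then 0 else (exists_EQ (v := v) h).choose

lemma EQ_ord {x : L} (hx : x ≠ 0) : EQ v x (ord v x) := by
  unfold ord; rw [dif_neg hx]; exact (exists_EQ (v := v) hx).choose_spec

lemma EQ.ord_eq {x : L} {h : Additive Γˣ} (hx : EQ v x h) : ord v x = h :=
  (EQ_ord hx.ne_zero).unique hx

open Classical in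
/-- clamped valuation -/
noncomputable def cl (v : Valuation L Γ) (m : Additive Γˣ) (x : L) : Additive Γˣ :=
  if x = 0 then m else max 0 (min m (ord v x))

lemma cl_EQ {m e : Additive Γˣ} {x : L} (hx : EQ v x e) : cl v m x = max 0 (min m e) := by
  unfold cl; rw [if_neg hx.ne_zero, hx.ord_eq]

lemma cl_GE {m : Additive Γˣ} {x : L} (hm : 0 ≤ m) (hx : GE v x m) : cl v m x = m := by
  by_cases h0 : x = 0
  · simp [cl, h0]
  · have := hx.le_of_EQ (EQ_ord h0)
    rw [cl_EQ (EQ_ord h0)]; grind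

lemma cl_nonneg {m : Additive Γˣ} (hm : 0 ≤ m) (x : L) : 0 ≤ cl v m x := by
  unfold cl; split_ifs <;> grind

lemma cl_le {m : Additive Γˣ} (hm : 0 ≤ m) (x : L) : cl v m x ≤ m := by
  unfold cl; split_ifs <;> grind

open Classical in
/-- the level of a point: distance to the identity component, in `[0, m]`. -/
noncomputable def lev (X : G → L) (v : Valuation L Γ) (m : Additive Γˣ) (g : G) : Additive Γˣ :=
  if g = 0 then 0 else cl v m (X g)

lemma lev_zero {m : Additive Γˣ} : lev X v m 0 = 0 := by simp [lev]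

lemma lev_of_ne {m : Additive Γˣ} {g : G} (hg : g ≠ 0) : lev X v m g = cl v m (X g) := by
  simp [lev, hg]

lemma lev_nonneg {m : Additive Γˣ} (hm : 0 ≤ m) (g : G) : 0 ≤ lev X v m g := by
  unfold lev; split_ifs
  · exact le_rfl
  · exact cl_nonneg hm _

lemma lev_le {m : Additive Γˣ} (hm : 0 ≤ m) (g : G) : lev X v m g ≤ m := by
  unfold lev; split_ifs
  · exact hm
  · exact cl_le hm _

include hX in
lemma IsXMap.lev_neg {m : Additive Γˣ} (g : G) : lev X v m (-g) = lev X v m g := by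
  by_cases hg : g = 0
  · simp [hg]
  · rw [lev_of_ne hg, lev_of_ne (neg_ne_zero.mpr hg), hX.neg]

lemma E0_of_lev_eq_zero {m : Additive Γˣ} (hm : 0 < m) {g : G} (h : lev X v m g = 0) :
    E0 X v g := by
  by_cases hg : g = 0
  · exact Or.inl hg
  right
  rw [lev_of_ne hg] at h
  by_cases h0 : X g = 0
  · simp [cl, h0] at h; exact absurd h hm.ne'
  · rw [cl_EQ (EQ_ord h0)] at h
    rw [(EQ_ord h0).one_le_iff]; grind

section KL

variable {m c : Additive Γˣ}
variable (ha : v a = 1) (h2 : v 2 = 1) (hb : EQ v b m)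

include ha h2 hb in
/-- pure field version of the key lemma, main case -/
lemma KL_main {x c₀ r₁ r₂ : L} {V : Additive Γˣ} (hc : EQ v c₀ c) (hc0 : 0 < c) (hcm : c < m)
    (hV : EQ v x V) (hV0 : 0 < V) (hVm : V < m) (hne : x ≠ c₀)
    (hS : (r₁ + r₂) * (x - c₀) ^ 2 = 2 * (x + c₀) * (x * c₀ + b) + a * (x * c₀))
    (hP : r₁ * r₂ * (x - c₀) ^ 2 = (x * c₀ - b) ^ 2) :
    ((cl v m r₁ = V - c ∨ cl v m r₁ = c - V) ∧ (cl v m r₂ = V + c ∨ cl v m r₂ = m + m - V - c)) ∨
    ((cl v m r₂ = V - c ∨ cl v m r₂ = c - V) ∧ (cl v m r₁ = V + c ∨ cl v m r₁ = m + m - V - c)) := by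
  have ha' : EQ v a 0 := EQ_zero_iff.mpr ha
  have h2' : EQ v 2 0 := EQ_zero_iff.mpr h2
  have hxc : EQ v (x * c₀) (V + c) := hV.mul hc
  have hd0 : x - c₀ ≠ 0 := sub_ne_zero.mpr hne
  obtain ⟨W, hW⟩ := exists_EQ (v := v) hd0
  have hWge : min V c ≤ W :=
    ((hV.ge.mono (min_le_left _ _)).sub (hc.ge.mono (min_le_right _ _))).le_of_EQ hW
  have hWeq : V ≠ c → W = min V c := by
    intro hVc
    rcases lt_or_gt_of_ne hVc with h | h
    · rw [hW.unique (hV.sub_of_GE hc.ge h)]; grind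
    · rw [hW.unique (hc.sub_of_GE' hV.ge h)]; grind
  have hZge : GE v (x * c₀ - b) (min (V + c) m) :=
    (hxc.ge.mono (min_le_left _ _)).sub (hb.ge.mono (min_le_right _ _))
  have hZeq : V + c ≠ m → EQ v (x * c₀ - b) (min (V + c) m) := by
    intro hVc
    rcases lt_or_gt_of_ne hVc with h | h
    · rw [min_eq_left h.le]; exact hxc.sub_of_GE hb.ge h
    · rw [min_eq_right h.le]; exact hb.sub_of_GE' hxc.ge h
  have hNS : EQ v (2 * (x + c₀) * (x * c₀ + b) + a * (x * c₀)) (V + c) := by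
    have h1 : GE v (2 * (x + c₀) * (x * c₀ + b)) (0 + min V c + min (V + c) m) :=
      (h2'.ge.mul ((hV.ge.mono (min_le_left _ _)).add (hc.ge.mono (min_le_right _ _)))).mul
        ((hxc.ge.mono (min_le_left _ _)).add (hb.ge.mono (min_le_right _ _)))
    have h3 : EQ v (a * (x * c₀)) (0 + (V + c)) := ha'.mul hxc
    have := h3.add_of_GE' h1 (by grind)
    simpa using this
  have hsum : r₁ + r₂ = (2 * (x + c₀) * (x * c₀ + b) + a * (x * c₀)) / (x - c₀) ^ 2 := by
    rw [eq_div_iff (pow_ne_zero 2 hd0), hS]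
  have hprod : r₁ * r₂ = (x * c₀ - b) ^ 2 / (x - c₀) ^ 2 := by
    rw [eq_div_iff (pow_ne_zero 2 hd0), hP]
  have hsumEQ : EQ v (r₁ + r₂) (V + c - (W + W)) := by
    rw [hsum]; exact hNS.div hW.sq
  have hprodGE : GE v (r₁ * r₂) (min (V + c) m + min (V + c) m - (W + W)) := by
    rw [hprod]; exact hZge.sq.div hW.sq
  have key : ∀ r r' : L, EQ v r (V + c - (W + W)) → r * r' = (x * c₀ - b) ^ 2 / (x - c₀) ^ 2 →
      (cl v m r = V - c ∨ cl v m r = c - V) ∧ (cl v m r' = V + c ∨ cl v m r' = m + m - V - c) := by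
    intro r r' hr hrr'
    constructor
    · rw [cl_EQ hr]
      by_cases hVc : V = c
      · left; grind
      · have := hWeq hVc; grind
    · have hr' : r' = (x * c₀ - b) ^ 2 / (x - c₀) ^ 2 / r := by
        rw [eq_div_iff hr.ne_zero, ← hrr', mul_comm]
      by_cases hVc : V + c = m
      · left
        have : GE v r' (min (V + c) m + min (V + c) m - (W + W) - (V + c - (W + W))) := by
          rw [hr']; exact (hZge.sq.div hW.sq).div hr
        rw [cl_GE (by grind) (this.mono (by grind))]; grind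
      · have : EQ v r' (min (V + c) m + min (V + c) m - (W + W) - (V + c - (W + W))) := by
          rw [hr']; exact ((hZeq hVc).sq.div hW.sq).div hr
        rw [cl_EQ this]; grind
  rcases two_roots_ne hsumEQ hprodGE (by grind) with h | h
  · exact Or.inl (key r₁ r₂ h hprod)
  · exact Or.inr (key r₂ r₁ h (by rw [mul_comm]; exact hprod))

include ha h2 hb in
/-- pure field version of the key lemma, `x` in the component of the 2-torsion point -/
lemma KL_far {x c₀ r₁ r₂ : L} (hc : EQ v c₀ c) (hc0 : 0 < c) (hcm : c < m)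
    (hV : GE v x m)
    (hS : (r₁ + r₂) * (x - c₀) ^ 2 = 2 * (x + c₀) * (x * c₀ + b) + a * (x * c₀))
    (hP : r₁ * r₂ * (x - c₀) ^ 2 = (x * c₀ - b) ^ 2) :
    cl v m r₁ = m - c ∧ cl v m r₂ = m - c := by
  have ha' : EQ v a 0 := EQ_zero_iff.mpr ha
  have h2' : EQ v 2 0 := EQ_zero_iff.mpr h2
  have hxc : GE v (x * c₀) (m + c) := hV.mul hc.ge
  have hW : EQ v (x - c₀) c := hc.sub_of_GE' hV hcm
  have hW' : GE v (x + c₀) c := (hV.mono hcm.le).add hc.ge
  have hZ : EQ v (x * c₀ - b) m := hb.sub_of_GE' hxc (by grind)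
  have hZ' : GE v (x * c₀ + b) m := (hxc.mono (by grind)).add hb.ge
  have hNS : GE v (2 * (x + c₀) * (x * c₀ + b) + a * (x * c₀)) (m + c) := by
    have h1 : GE v (2 * (x + c₀) * (x * c₀ + b)) (0 + c + m) := (h2'.ge.mul hW').mul hZ'
    have h3 : GE v (a * (x * c₀)) (0 + (m + c)) := ha'.ge.mul hxc
    exact (h1.mono (by grind)).add (h3.mono (by grind))
  have hd0 := hW.ne_zero
  have hsum : r₁ + r₂ = (2 * (x + c₀) * (x * c₀ + b) + a * (x * c₀)) / (x - c₀) ^ 2 := by
    rw [eq_div_iff (pow_ne_zero 2 hd0), hS]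
  have hprod : r₁ * r₂ = (x * c₀ - b) ^ 2 / (x - c₀) ^ 2 := by
    rw [eq_div_iff (pow_ne_zero 2 hd0), hP]
  have hsumGE : GE v (r₁ + r₂) (m - c) := by
    rw [hsum]; exact (hNS.div hW.sq).mono (by grind)
  have hprodEQ : EQ v (r₁ * r₂) ((m - c) + (m - c)) := by
    have := hZ.sq.div hW.sq
    rw [← hprod] at this
    have e : m + m - (c + c) = (m - c) + (m - c) := by abel
    rwa [e] at this
  obtain ⟨h1, h3⟩ := two_roots_eq hprodEQ hsumGE
  rw [cl_EQ h1, cl_EQ h3]
  constructor <;> grind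

include ha h2 hb in
/-- pure field version of the key lemma, `x` in the identity component -/
lemma KL_near {x c₀ r₁ r₂ : L} {V : Additive Γˣ} (hc : EQ v c₀ c) (hc0 : 0 < c) (hcm : c < m)
    (hV : EQ v x V) (hV0 : V ≤ 0)
    (hS : (r₁ + r₂) * (x - c₀) ^ 2 = 2 * (x + c₀) * (x * c₀ + b) + a * (x * c₀))
    (hP : r₁ * r₂ * (x - c₀) ^ 2 = (x * c₀ - b) ^ 2) :
    cl v m r₁ = c ∧ cl v m r₂ = c := by
  have ha' : EQ v a 0 := EQ_zero_iff.mpr ha
  have h2' : EQ v 2 0 := EQ_zero_iff.mpr h2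
  have hxc : EQ v (x * c₀) (V + c) := hV.mul hc
  have hW : EQ v (x - c₀) V := hV.sub_of_GE hc.ge (by grind)
  have hW' : GE v (x + c₀) V := hV.ge.add (hc.ge.mono (by grind))
  have hZ : EQ v (x * c₀ - b) (V + c) := hxc.sub_of_GE hb.ge (by grind)
  have hZ' : GE v (x * c₀ + b) (V + c) := hxc.ge.add (hb.ge.mono (by grind))
  have hNS : GE v (2 * (x + c₀) * (x * c₀ + b) + a * (x * c₀)) (V + V + c) := by
    have h1 : GE v (2 * (x + c₀) * (x * c₀ + b)) (0 + V + (V + c)) := (h2'.ge.mul hW').mul hZ'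
    have h3 : GE v (a * (x * c₀)) (0 + (V + c)) := ha'.ge.mul hxc.ge
    exact (h1.mono (by grind)).add (h3.mono (by grind))
  have hd0 := hW.ne_zero
  have hsum : r₁ + r₂ = (2 * (x + c₀) * (x * c₀ + b) + a * (x * c₀)) / (x - c₀) ^ 2 := by
    rw [eq_div_iff (pow_ne_zero 2 hd0), hS]
  have hprod : r₁ * r₂ = (x * c₀ - b) ^ 2 / (x - c₀) ^ 2 := by
    rw [eq_div_iff (pow_ne_zero 2 hd0), hP]
  have hsumGE : GE v (r₁ + r₂) c := by
    rw [hsum]; exact (hNS.div hW.sq).mono (by grind)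
  have hprodEQ : EQ v (r₁ * r₂) (c + c) := by
    have := hZ.sq.div hW.sq
    rw [← hprod] at this
    have e : V + c + (V + c) - (V + V) = c + c := by abel
    rwa [e] at this
  obtain ⟨h1, h3⟩ := two_roots_eq hprodEQ hsumGE
  rw [cl_EQ h1, cl_EQ h3]
  constructor <;> grind

include hX ha h2 hb in
/-- doubling a point of level `c` -/
lemma IsXMap.KL_dbl {P : G} (hP0 : P ≠ 0) (hc : EQ v (X P) c) (hc0 : 0 < c) (hcm : c < m) :
    lev X v m (P + P) = c + c ∨ lev X v m (P + P) = m + m - c - c := by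
  have ha' : EQ v a 0 := EQ_zero_iff.mpr ha
  have h2' : EQ v 2 0 := EQ_zero_iff.mpr h2
  have h4' : EQ v 4 0 := by
    have := h2'.mul h2'
    norm_num at this; exact this
  have hD : EQ v (4 * X P ^ 2 + a * X P + 4 * b) c := by
    have h1 : GE v (4 * X P ^ 2) (0 + (c + c)) := h4'.ge.mul hc.sq.ge
    have h3 : EQ v (a * X P) (0 + c) := ha'.mul hc
    have h4 : GE v (4 * b) (0 + m) := h4'.ge.mul hb.ge
    have h5 := (h3.add_of_GE' h1 (by grind)).add_of_GE h4 (by grind)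
    simpa using h5
  have hd : EQ v (X P * (4 * X P ^ 2 + a * X P + 4 * b)) (c + c) := hc.mul hD
  have hPP : P + P ≠ 0 := fun h => hd.ne_zero (hX.dbl_zero P hP0 h)
  have hdbl := hX.dbl P hP0 hPP
  have hXPP : X (P + P) = (X P ^ 2 - b) ^ 2 / (X P * (4 * X P ^ 2 + a * X P + 4 * b)) := by
    rw [eq_div_iff hd.ne_zero, hdbl]
  rw [lev_of_ne hPP]
  have hZge : GE v (X P ^ 2 - b) (min (c + c) m) :=
    (hc.sq.ge.mono (min_le_left _ _)).sub (hb.ge.mono (min_le_right _ _))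
  by_cases hcc : c + c = m
  · left
    have : GE v (X (P + P)) (min (c + c) m + min (c + c) m - (c + c)) := by
      rw [hXPP]; exact hZge.sq.div hd
    rw [cl_GE (by grind) (this.mono (by grind))]; grind
  · have hZeq : EQ v (X P ^ 2 - b) (min (c + c) m) := by
      rcases lt_or_gt_of_ne hcc with h | h
      · rw [min_eq_left h.le]; exact hc.sq.sub_of_GE hb.ge h
      · rw [min_eq_right h.le]; exact hb.sub_of_GE' hc.sq.ge h
    have : EQ v (X (P + P)) (min (c + c) m + min (c + c) m - (c + c)) := by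
      rw [hXPP]; exact hZeq.sq.div hd
    rw [cl_EQ this]; grind

include hX ha h2 hb in
/-- **Key lemma**: how levels change under adding and subtracting a point of level `c`. -/
lemma IsXMap.KL {P : G} (hP0 : P ≠ 0) (hc : EQ v (X P) c) (hc0 : 0 < c) (hcm : c < m) (Q : G) :
    ((lev X v m (Q + P) = lev X v m Q - c ∨ lev X v m (Q + P) = c - lev X v m Q) ∧
      (lev X v m (Q - P) = lev X v m Q + c ∨ lev X v m (Q - P) = m + m - lev X v m Q - c)) ∨
    ((lev X v m (Q - P) = lev X v m Q - c ∨ lev X v m (Q - P) = c - lev X v m Q) ∧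
      (lev X v m (Q + P) = lev X v m Q + c ∨ lev X v m (Q + P) = m + m - lev X v m Q - c)) := by
  have hlevP : lev X v m P = c := by
    rw [lev_of_ne hP0, cl_EQ hc]; grind
  by_cases hQ0 : Q = 0
  · subst hQ0
    left
    rw [zero_add, zero_sub, hX.lev_neg, hlevP, lev_zero]
    constructor
    · right; simp
    · left; simp
  by_cases hne : X Q = X P
  · have hlevQ : lev X v m Q = c := by
      rw [lev_of_ne hQ0, hne, ← lev_of_ne hP0, hlevP]
    have hd := hX.KL_dbl ha h2 hb hP0 hc hc0 hcm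
    rw [hlevQ]
    rcases hX.inj Q P hQ0 hP0 hne with rfl | rfl
    · right
      rw [sub_self, lev_zero]
      exact ⟨Or.inl (by simp), hd⟩
    · left
      have h5 : -P - P = -(P + P) := by abel
      rw [neg_add_cancel, lev_zero, h5, hX.lev_neg]
      exact ⟨Or.inl (by simp), hd⟩
  have hS := hX.sum Q P hQ0 hP0 hne
  have hPr := hX.prod Q P hQ0 hP0 hne
  rw [lev_of_ne (hX.add_ne hne), lev_of_ne (hX.sub_ne hne), lev_of_ne hQ0]
  by_cases hfar : GE v (X Q) m
  · obtain ⟨h1, h3⟩ := KL_far ha h2 hb hc hc0 hcm hfar hS hPr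
    rw [cl_GE (by grind) hfar, h1, h3]
    left
    exact ⟨Or.inl rfl, Or.inr (by abel)⟩
  have hx0 : X Q ≠ 0 := by
    intro h; apply hfar; rw [h]; exact GE_zero
  obtain ⟨V, hV⟩ := exists_EQ (v := v) hx0
  have hVm : V < m := by
    by_contra hcon
    exact hfar (hV.ge.mono (not_lt.mp hcon))
  by_cases hV0 : V ≤ 0
  · obtain ⟨h1, h3⟩ := KL_near ha h2 hb hc hc0 hcm hV hV0 hS hPr
    have : cl v m (X Q) = 0 := by rw [cl_EQ hV]; grind
    rw [this, h1, h3]
    left
    exact ⟨Or.inr (by simp), Or.inl (by simp)⟩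
  · have hV0' : 0 < V := not_le.mp hV0
    have : cl v m (X Q) = V := by rw [cl_EQ hV]; grind
    rw [this]
    exact KL_main ha h2 hb hc hc0 hcm hV hV0' hVm hne hS hPr

end KL

/-! ### The induction on multiples -/

section Rel

variable {H : Type*} [AddCommGroup H] [LinearOrder H] [IsOrderedAddMonoid H]

/-- `u ≡ ± j c` modulo `2 m`. -/
def Rel (c m u : H) (j : ℤ) : Prop := ∃ k : ℤ, u = j • c + k • (m + m) ∨ u = -(j • c) + k • (m + m)

lemma zsmul_small {M : H} (hM : 0 < M) {k : ℤ} (h1 : -M < k • M) (h2 : k • M < M) : k = 0 := by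
  by_contra hk
  rcases lt_or_gt_of_ne hk with h | h
  · have : k • M ≤ (-1 : ℤ) • M := zsmul_le_zsmul_left hM.le (by omega)
    simp at this; grind
  · have : (1 : ℤ) • M ≤ k • M := zsmul_le_zsmul_left hM.le (by omega)
    simp at this; grind

lemma zsmul_mid {M : H} (hM : 0 < M) {k : ℤ} (h1 : 0 ≤ k • M) (h2 : k • M ≤ M) :
    k = 0 ∨ k = 1 := by
  by_contra hk
  push Not at hk
  rcases lt_or_gt_of_ne hk.1 with h | h
  · have : k • M ≤ (-1 : ℤ) • M := zsmul_le_zsmul_left hM.le (by omega)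
    simp at this; grind
  · have : (2 : ℤ) • M ≤ k • M := zsmul_le_zsmul_left hM.le (by omega)
    rw [two_zsmul] at this; grind

lemma Rel.unique {c m u u' : H} {j : ℤ} (hm : 0 < m) (hu0 : 0 ≤ u) (hum : u ≤ m) (hu'0 : 0 ≤ u')
    (hu'm : u' ≤ m) (h : Rel c m u j) (h' : Rel c m u' j) : u = u' := by
  obtain ⟨k, hk⟩ := h
  obtain ⟨k', hk'⟩ := h'
  have hM : 0 < m + m := by grind
  have same : ∀ w w' : H, 0 ≤ w → w ≤ m → 0 ≤ w' → w' ≤ m → ∀ l : ℤ, w - w' = l • (m + m) →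
      w = w' := by
    intro w w' h1 h2 h3 h4 l hl
    have : l = 0 := zsmul_small hM (by rw [← hl]; grind) (by rw [← hl]; grind)
    rw [this, zero_smul] at hl
    exact sub_eq_zero.mp hl
  have opp : ∀ w w' : H, 0 ≤ w → w ≤ m → 0 ≤ w' → w' ≤ m → ∀ l : ℤ, w + w' = l • (m + m) →
      w = w' := by
    intro w w' h1 h2 h3 h4 l hl
    rcases zsmul_mid hM (k := l) (by rw [← hl]; grind) (by rw [← hl]; grind) with h | h
    · rw [h, zero_smul] at hl; grind
    · rw [h, one_smul] at hl; grind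
  rcases hk with hk | hk <;> rcases hk' with hk' | hk'
  · exact same u u' hu0 hum hu'0 hu'm (k - k') (by rw [hk, hk']; module)
  · exact opp u u' hu0 hum hu'0 hu'm (k + k') (by rw [hk, hk']; module)
  · exact opp u u' hu0 hum hu'0 hu'm (k + k') (by rw [hk, hk']; module)
  · exact same u u' hu0 hum hu'0 hu'm (k - k') (by rw [hk, hk']; module)

/-- the abstract induction step -/
lemma Rel.step {c m d A B : H} {j : ℤ} (hm : 0 < m) (hA0 : 0 ≤ A) (hAm : A ≤ m) (hB0 : 0 ≤ B)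
    (hBm : B ≤ m) (hd : Rel c m d j) (hB : Rel c m B (j - 1))
    (hKL : ((A = d - c ∨ A = c - d) ∧ (B = d + c ∨ B = m + m - d - c)) ∨
      ((B = d - c ∨ B = c - d) ∧ (A = d + c ∨ A = m + m - d - c))) :
    Rel c m A (j + 1) := by
  obtain ⟨k, hk⟩ := hd
  -- the four derived values
  have r1 : d = j • c + k • (m + m) → Rel c m (d + c) (j + 1) ∧ Rel c m (m + m - d - c) (j + 1) ∧
      Rel c m (d - c) (j - 1) ∧ Rel c m (c - d) (j - 1) := by
    intro h
    refine ⟨⟨k, Or.inl (by rw [h]; module)⟩, ⟨1 - k, Or.inr (by rw [h]; module)⟩,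
      ⟨k, Or.inl (by rw [h]; module)⟩, ⟨-k, Or.inr (by rw [h]; module)⟩⟩
  have r2 : d = -(j • c) + k • (m + m) → Rel c m (d + c) (j - 1) ∧
      Rel c m (m + m - d - c) (j - 1) ∧ Rel c m (d - c) (j + 1) ∧ Rel c m (c - d) (j + 1) := by
    intro h
    refine ⟨⟨k, Or.inr (by rw [h]; module)⟩, ⟨1 - k, Or.inl (by rw [h]; module)⟩,
      ⟨k, Or.inr (by rw [h]; module)⟩, ⟨-k, Or.inl (by rw [h]; module)⟩⟩
  rcases hk with hk | hk
  · obtain ⟨s1, s2, s3, s4⟩ := r1 hk
    rcases hKL with ⟨hA, hB'⟩ | ⟨hB', hA⟩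
    · have hA' : Rel c m A (j - 1) := by rcases hA with h | h <;> rw [h] <;> assumption
      have hB'' : Rel c m B (j + 1) := by rcases hB' with h | h <;> rw [h] <;> assumption
      rw [Rel.unique hm hA0 hAm hB0 hBm hA' hB]; exact hB''
    · rcases hA with h | h <;> rw [h] <;> assumption
  · obtain ⟨s1, s2, s3, s4⟩ := r2 hk
    rcases hKL with ⟨hA, hB'⟩ | ⟨hB', hA⟩
    · rcases hA with h | h <;> rw [h] <;> assumption
    · have hA' : Rel c m A (j - 1) := by rcases hA with h | h <;> rw [h] <;> assumption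
      have hB'' : Rel c m B (j + 1) := by rcases hB' with h | h <;> rw [h] <;> assumption
      rw [Rel.unique hm hA0 hAm hB0 hBm hA' hB]; exact hB''

end Rel

section Main

variable {m c : Additive Γˣ}
variable (ha : v a = 1) (h2 : v 2 = 1) (hb : EQ v b m)

include hX ha h2 hb in
lemma IsXMap.lev_nsmul {P : G} (hP0 : P ≠ 0) (hc : EQ v (X P) c) (hc0 : 0 < c) (hcm : c < m)
    (n : ℕ) : Rel c m (lev X v m (n • P)) n ∧ Rel c m (lev X v m ((n + 1) • P)) (n + 1) := by
  have hm : 0 < m := hc0.trans hcm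
  induction n with
  | zero =>
    constructor
    · exact ⟨0, Or.inl (by simp [lev_zero])⟩
    · refine ⟨0, Or.inl ?_⟩
      have : lev X v m P = c := by rw [lev_of_ne hP0, cl_EQ hc]; grind
      simp [this]
  | succ n ih =>
    refine ⟨by exact_mod_cast ih.2, ?_⟩
    have hKL := hX.KL ha h2 hb hP0 hc hc0 hcm ((n + 1) • P)
    have e1 : (n + 1) • P + P = (n + 1 + 1) • P := by rw [succ_nsmul (n := n + 1)]
    have e2 : (n + 1) • P - P = n • P := by rw [succ_nsmul]; abel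
    rw [e1, e2] at hKL
    have := Rel.step (j := (n : ℤ) + 1) hm (lev_nonneg hm.le _) (lev_le hm.le _)
      (lev_nonneg hm.le _) (lev_le hm.le _) ih.2 (by simpa using ih.1) hKL
    exact_mod_cast this

include hX ha h2 hb in
/-- **Levels of torsion points.** -/
theorem IsXMap.level_of_torsion {P : G} (hP0 : P ≠ 0) (hc : EQ v (X P) c) (hc0 : 0 < c)
    (hcm : c < m) {p : ℕ} (hp : p ≠ 0) (hpP : p • P = 0) {μ : Additive Γˣ} (hμ : m = p • μ) :
    ∃ k : ℤ, c = (2 * k) • μ := by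
  obtain ⟨k, hk⟩ := (hX.lev_nsmul ha h2 hb hP0 hc hc0 hcm p).1
  rw [hpP, lev_zero] at hk
  have hp' : (p : ℤ) ≠ 0 := by exact_mod_cast hp
  have hμ' : m = (p : ℤ) • μ := by rw [hμ, natCast_zsmul]
  rcases hk with hk | hk
  · refine ⟨-k, (zsmul_right_inj hp').mp ?_⟩
    have : (p : ℤ) • c = -(k • (m + m)) := by
      have := hk; grind
    rw [this, hμ']; module
  · refine ⟨k, (zsmul_right_inj hp').mp ?_⟩
    have : (p : ℤ) • c = k • (m + m) := by
      have := hk; grind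
    rw [this, hμ']; module

include hX ha h2 hb in
/-- doubling a point in the component of the 2-torsion point lands in the identity component -/
lemma IsXMap.far_dbl {P : G} (hP0 : P ≠ 0) (hm : 0 < m) (hP : GE v (X P) m) :
    E0 X v (P + P) := by
  by_cases hPP : P + P = 0
  · exact Or.inl hPP
  right
  have hdbl := hX.dbl P hP0 hPP
  have ha' : EQ v a 0 := EQ_zero_iff.mpr ha
  have h2' : EQ v 2 0 := EQ_zero_iff.mpr h2
  have h4' : EQ v 4 0 := by
    have := h2'.mul h2'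
    norm_num at this; exact this
  have hN : EQ v (X P ^ 2 - b) m := hb.sub_of_GE' hP.sq (by grind)
  have hD : GE v (X P * (4 * X P ^ 2 + a * X P + 4 * b)) (m + m) := by
    have h1 : GE v (4 * X P ^ 2) (0 + (m + m)) := h4'.ge.mul hP.sq
    have h3 : GE v (a * X P) (0 + m) := ha'.ge.mul hP
    have h4 : GE v (4 * b) (0 + m) := h4'.ge.mul hb.ge
    exact hP.mul (((h1.mono (by grind)).add (h3.mono (by grind))).add (h4.mono (by grind)))
  have hne : X (P + P) * (X P * (4 * X P ^ 2 + a * X P + 4 * b)) ≠ 0 := by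
    rw [hdbl]; exact hN.sq.ne_zero
  obtain ⟨f, hf⟩ := exists_EQ (v := v) (left_ne_zero_of_mul hne)
  obtain ⟨δ, hδ⟩ := exists_EQ (v := v) (right_ne_zero_of_mul hne)
  have h1 : f + δ = m + m := by
    have := hf.mul hδ
    rw [hdbl] at this
    exact this.unique hN.sq
  have h3 : m + m ≤ δ := hD.le_of_EQ hδ
  rw [hf.one_le_iff]
  grind

include hX ha h2 hb in
/-- two points of the same level differ (up to sign) by a point of the identity component -/
lemma IsXMap.same_level {P Q : G} (hP0 : P ≠ 0) (hQ0 : Q ≠ 0) (hc : EQ v (X P) c)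
    (hc' : EQ v (X Q) c) (hc0 : 0 < c) (hcm : c < m) : E0 X v (Q + P) ∨ E0 X v (Q - P) := by
  have hm : 0 < m := hc0.trans hcm
  have hlev : lev X v m Q = c := by rw [lev_of_ne hQ0, cl_EQ hc']; grind
  have := hX.KL ha h2 hb hP0 hc hc0 hcm Q
  rw [hlev] at this
  rcases this with ⟨h, -⟩ | ⟨h, -⟩
  · left; exact E0_of_lev_eq_zero hm (by rcases h with h | h <;> simpa using h)
  · right; exact E0_of_lev_eq_zero hm (by rcases h with h | h <;> simpa using h)

end Main

lemma ex_zsmul (h : Additive Γˣ) (k : ℤ) : (ex (k • h) : Γ) = ex h ^ k := by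
  simp [ex]

lemma EQ.zpow {x : L} {h : Additive Γˣ} (hx : EQ v x h) (k : ℤ) : EQ v (x ^ k) (k • h) := by
  unfold EQ at *; rw [map_zpow₀, hx, ex_zsmul]

lemma EQ.pow {x : L} {h : Additive Γˣ} (hx : EQ v x h) (k : ℕ) : EQ v (x ^ k) (k • h) := by
  have := hx.zpow (k : ℤ)
  rwa [zpow_natCast, natCast_zsmul] at this

section Summary

variable (ha : v a = 1) (h2 : v 2 = 1)

include hX ha h2 in
/-- **Summary of the multiplicative analysis for torsion points.** -/
theorem IsXMap.mult_torsion {β : L} {p : ℕ} (hβ0 : β ≠ 0) (hβ : v β < 1) (hodd : Odd p)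
    (hb : v b = v β ^ p) {P : G} (hP0 : P ≠ 0) (hpP : p • P = 0) (hP : v (X P) < 1) :
    v b < v (X P) ∧ ∃ k : ℤ, v (X P) = v (β ^ (2 * k)) := by
  obtain ⟨μ, hμ⟩ := exists_EQ (v := v) hβ0
  have hμ0 : 0 < μ := hμ.lt_one_iff.mp hβ
  have hp0 : p ≠ 0 := by rintro rfl; simp at hodd
  have hbm : EQ v b (p • μ) := by
    have := hμ.pow p
    unfold EQ at this ⊢
    rw [hb, ← map_pow, this]
  have hm : 0 < p • μ := nsmul_pos hμ0 hp0
  have hblt : v b < 1 := hbm.lt_one_iff.mpr hm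
  have hnotfar : ¬ GE v (X P) (p • μ) := by
    intro hfar
    have h1 := hX.far_dbl ha h2 hbm hP0 hm hfar
    obtain ⟨j, hj⟩ := hodd
    have h3 := hX.E0_nsmul ha.le hblt h2 h1 (j + 1)
    have h4 : (j + 1) • (P + P) = P := by
      have : (j + 1) • (P + P) = p • P + P := by rw [hj]; module
      rw [this, hpP, zero_add]
    rw [h4] at h3
    exact absurd (h3.resolve_left hP0) (not_le.mpr hP)
  have hx0 : X P ≠ 0 := by
    intro h; apply hnotfar; rw [h]; exact GE_zero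
  obtain ⟨c, hc⟩ := exists_EQ (v := v) hx0
  have hc0 : 0 < c := hc.lt_one_iff.mp hP
  have hcm : c < p • μ := by
    by_contra hcon
    exact hnotfar (hc.ge.mono (not_lt.mp hcon))
  refine ⟨(hbm.lt_iff hc).mpr hcm, ?_⟩
  obtain ⟨k, hk⟩ := hX.level_of_torsion ha h2 hbm hP0 hc hc0 hcm hp0 hpP rfl
  refine ⟨k, ?_⟩
  have := hμ.zpow (2 * k)
  rw [← hk] at this
  rw [hc, this]

include hX ha h2 in
/-- two points of the same level, valuation form -/
theorem IsXMap.same_level' {P Q : G} (hP0 : P ≠ 0) (hQ0 : Q ≠ 0) (hPQ : v (X Q) = v (X P))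
    (hP : v (X P) < 1) (hbP : v b < v (X P)) (hb0 : b ≠ 0) :
    E0 X v (Q + P) ∨ E0 X v (Q - P) := by
  obtain ⟨m, hm⟩ := exists_EQ (v := v) hb0
  have hx0 : X P ≠ 0 := by
    intro h; rw [h, map_zero] at hbP; exact not_lt_of_ge zero_le hbP
  obtain ⟨c, hc⟩ := exists_EQ (v := v) hx0
  have hc' : EQ v (X Q) c := by unfold EQ; rw [hPQ, hc]
  exact hX.same_level ha h2 hm hP0 hQ0 hc hc' (hc.lt_one_iff.mp hP) ((hm.lt_iff hc).mp hbP)

end Summary

end Fermat.Agent.S05lib
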