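import Mathlib

/-!
# Additive bookkeeping for a valuation

For a valuation `v : Valuation L Γ` we use the ordered additive group `H = Additive Γˣ`
and the relations `EQ v x h` ("`x ≠ 0` and `ord x = h`") and `GE v x h` ("`ord x ≥ h`").
-/

set_option autoImplicit false

namespace Fermat.Agent.S05lib

variable {L Γ : Type*} [Field L] [LinearOrderedCommGroupWithZero Γ]

/-- exponential from the additive value group to `Γ` (order reversing). -/
def ex (h : Additive Γˣ) : Γ := ((Additive.toMul h)⁻¹ : Γˣ)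

lemma ex_zero : ex (0 : Additive Γˣ) = (1 : Γ) := by simp [ex]

lemma ex_add (h k : Additive Γˣ) : ex (h + k) = (ex h * ex k : Γ) := by
  simp [ex, mul_comm]

lemma ex_neg (h : Additive Γˣ) : ex (-h) = (ex h : Γ)⁻¹ := by
  simp [ex]

lemma ex_ne_zero (h : Additive Γˣ) : (ex h : Γ) ≠ 0 := Units.ne_zero _

lemma ex_pos (h : Additive Γˣ) : (0 : Γ) < ex h := zero_lt_iff.mpr (ex_ne_zero h)

lemma ex_le_ex {h k : Additive Γˣ} : (ex h : Γ) ≤ ex k ↔ k ≤ h := by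
  unfold ex
  rw [Units.val_le_val, inv_le_inv_iff]
  rfl

lemma ex_lt_ex {h k : Additive Γˣ} : (ex h : Γ) < ex k ↔ k < h := by
  rw [← not_le, ← not_le, ex_le_ex]

lemma ex_injective : Function.Injective (ex : Additive Γˣ → Γ) := by
  intro h k hk
  exact le_antisymm (ex_le_ex.mp hk.ge) (ex_le_ex.mp hk.le)

lemma exists_ex {t : Γ} (ht : t ≠ 0) : ∃ h : Additive Γˣ, ex h = t :=
  ⟨Additive.ofMul (Units.mk0 t ht)⁻¹, by simp [ex]⟩

variable (v : Valuation L Γ)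

/-- `x ≠ 0` and `ord x = h`. -/
def EQ (x : L) (h : Additive Γˣ) : Prop := v x = ex h

/-- `ord x ≥ h` (including `x = 0`). -/
def GE (x : L) (h : Additive Γˣ) : Prop := v x ≤ ex h

variable {v} {x y : L} {h k : Additive Γˣ}

lemma EQ.ne_zero (hx : EQ v x h) : x ≠ 0 := by
  rintro rfl
  exact ex_ne_zero h (by simpa [EQ] using hx.symm)

lemma exists_EQ (hx : x ≠ 0) : ∃ h, EQ v x h := by
  obtain ⟨h, hh⟩ := exists_ex ((v.ne_zero_iff).mpr hx)
  exact ⟨h, hh.symm⟩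

lemma EQ.unique (h1 : EQ v x h) (h2 : EQ v x k) : h = k :=
  ex_injective (h1.symm.trans h2)

lemma EQ.ge (hx : EQ v x h) : GE v x h := le_of_eq hx

lemma GE.mono (hx : GE v x h) (hk : k ≤ h) : GE v x k := le_trans hx (ex_le_ex.mpr hk)

lemma GE_zero : GE v 0 h := by simp [GE]

lemma GE.le_of_EQ (hx : GE v x h) (hx' : EQ v x k) : h ≤ k := by
  unfold GE at hx; rw [hx'] at hx; exact ex_le_ex.mp hx

lemma EQ.mul (hx : EQ v x h) (hy : EQ v y k) : EQ v (x * y) (h + k) := by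
  unfold EQ at *; rw [map_mul, hx, hy, ex_add]

lemma EQ.inv (hx : EQ v x h) : EQ v x⁻¹ (-h) := by
  unfold EQ at *; rw [map_inv₀, hx, ex_neg]

lemma EQ.div (hx : EQ v x h) (hy : EQ v y k) : EQ v (x / y) (h - k) := by
  rw [div_eq_mul_inv, sub_eq_add_neg]; exact hx.mul hy.inv

lemma EQ.sq (hx : EQ v x h) : EQ v (x ^ 2) (h + h) := by
  rw [pow_two]; exact hx.mul hx

lemma EQ.neg (hx : EQ v x h) : EQ v (-x) h := by
  unfold EQ at *; rwa [Valuation.map_neg]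

lemma GE.neg (hx : GE v x h) : GE v (-x) h := by
  unfold GE at *; rwa [Valuation.map_neg]

lemma GE.mul (hx : GE v x h) (hy : GE v y k) : GE v (x * y) (h + k) := by
  unfold GE at *; rw [map_mul, ex_add]; exact mul_le_mul' hx hy

lemma GE.sq (hx : GE v x h) : GE v (x ^ 2) (h + h) := by
  rw [pow_two]; exact hx.mul hx

lemma GE.add (hx : GE v x h) (hy : GE v y h) : GE v (x + y) h :=
  (v.map_add x y).trans (max_le hx hy)

lemma GE.sub (hx : GE v x h) (hy : GE v y h) : GE v (x - y) h := by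
  rw [sub_eq_add_neg]; exact hx.add hy.neg

lemma GE.div (hx : GE v x h) (hy : EQ v y k) : GE v (x / y) (h - k) := by
  rw [div_eq_mul_inv, sub_eq_add_neg]; exact hx.mul hy.inv.ge

lemma EQ.add_of_GE (hx : EQ v x h) (hy : GE v y k) (hk : h < k) : EQ v (x + y) h := by
  unfold EQ GE at *
  have : v y < v x := by rw [hx]; exact lt_of_le_of_lt hy (ex_lt_ex.mpr hk)
  rw [Valuation.map_add_eq_of_lt_left v this, hx]

lemma EQ.add_of_GE' (hx : EQ v x h) (hy : GE v y k) (hk : h < k) : EQ v (y + x) h := by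
  rw [add_comm]; exact hx.add_of_GE hy hk

lemma EQ.sub_of_GE (hx : EQ v x h) (hy : GE v y k) (hk : h < k) : EQ v (x - y) h := by
  rw [sub_eq_add_neg]; exact hx.add_of_GE hy.neg hk

lemma EQ.sub_of_GE' (hx : EQ v x h) (hy : GE v y k) (hk : h < k) : EQ v (y - x) h := by
  rw [sub_eq_add_neg, add_comm]; exact hx.neg.add_of_GE hy hk

lemma EQ_zero_iff : EQ v x 0 ↔ v x = 1 := by unfold EQ; rw [ex_zero]

lemma GE_zero_iff : GE v x 0 ↔ v x ≤ 1 := by unfold GE; rw [ex_zero]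

lemma EQ.lt_one_iff (hx : EQ v x h) : v x < 1 ↔ 0 < h := by
  rw [hx, ← ex_zero, ex_lt_ex]

lemma EQ.le_one_iff (hx : EQ v x h) : v x ≤ 1 ↔ 0 ≤ h := by
  rw [hx, ← ex_zero, ex_le_ex]

lemma EQ.one_lt_iff (hx : EQ v x h) : 1 < v x ↔ h < 0 := by
  rw [hx, ← ex_zero, ex_lt_ex]

lemma EQ.one_le_iff (hx : EQ v x h) : 1 ≤ v x ↔ h ≤ 0 := by
  rw [hx, ← ex_zero, ex_le_ex]

lemma EQ.lt_iff (hx : EQ v x h) (hy : EQ v y k) : v x < v y ↔ k < h := by
  rw [hx, hy, ex_lt_ex]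

lemma EQ.le_iff (hx : EQ v x h) (hy : EQ v y k) : v x ≤ v y ↔ k ≤ h := by
  rw [hx, hy, ex_le_ex]

lemma EQ.eq_iff (hx : EQ v x h) (hy : EQ v y k) : v x = v y ↔ h = k := by
  rw [hx, hy]; exact ex_injective.eq_iff

lemma GE_iff_of_EQ (hy : EQ v y k) : GE v x k ↔ v x ≤ v y := by
  unfold GE; rw [hy]

/-- two roots, equal valuations -/
lemma two_roots_eq {r₁ r₂ : L} {c : Additive Γˣ} (hp : EQ v (r₁ * r₂) (c + c))
    (hs : GE v (r₁ + r₂) c) : EQ v r₁ c ∧ EQ v r₂ c := by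
  have h1 : r₁ ≠ 0 := left_ne_zero_of_mul hp.ne_zero
  have h2 : r₂ ≠ 0 := right_ne_zero_of_mul hp.ne_zero
  obtain ⟨e₁, he₁⟩ := exists_EQ (v := v) h1
  obtain ⟨e₂, he₂⟩ := exists_EQ (v := v) h2
  have hsum : e₁ + e₂ = c + c := (he₁.mul he₂).unique hp
  rcases lt_trichotomy e₁ e₂ with hlt | heq | hlt
  · have := hs.le_of_EQ (he₁.add_of_GE he₂.ge hlt)
    exfalso; grind
  · have : e₁ = c := by grind
    subst heq; subst this; exact ⟨he₁, he₂⟩
  · have := hs.le_of_EQ (he₂.add_of_GE' he₁.ge hlt)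
    exfalso; grind

/-- two roots, distinct valuations -/
lemma two_roots_ne {r₁ r₂ : L} {s π : Additive Γˣ} (hs : EQ v (r₁ + r₂) s)
    (hp : GE v (r₁ * r₂) π) (hlt : s + s < π) : EQ v r₁ s ∨ EQ v r₂ s := by
  by_cases h1 : r₁ = 0
  · right; simpa [h1] using hs
  by_cases h2 : r₂ = 0
  · left; simpa [h2] using hs
  obtain ⟨e₁, he₁⟩ := exists_EQ (v := v) h1
  obtain ⟨e₂, he₂⟩ := exists_EQ (v := v) h2
  have hsum : π ≤ e₁ + e₂ := hp.le_of_EQ (he₁.mul he₂)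
  rcases lt_trichotomy e₁ e₂ with hlt' | heq | hlt'
  · left
    have := (he₁.add_of_GE he₂.ge hlt').unique hs
    rwa [this] at he₁
  · subst heq
    have := (he₁.ge.add he₂.ge).le_of_EQ hs
    exfalso; grind
  · right
    have := (he₂.add_of_GE' he₁.ge hlt').unique hs
    rwa [this] at he₂

end Fermat.Agent.S05lib
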