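import Fermat.Agent.S05.Ord

/-!
# Abstract x-coordinate maps

`IsXMap X a b` axiomatises the x-coordinate (shifted so that a 2-torsion point has `X = 0`) on the
group of points of `Y² = 4 X³ + a X² + 4 b X`.
-/

set_option autoImplicit false

namespace Fermat.Agent.S05lib

variable {G L Γ : Type*} [AddCommGroup G] [Field L] [LinearOrderedCommGroupWithZero Γ]

structure IsXMap (X : G → L) (a b : L) : Prop where
  neg : ∀ g, X (-g) = X g
  inj : ∀ g h, g ≠ 0 → h ≠ 0 → X g = X h → g = h ∨ g = -h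
  sum : ∀ g h, g ≠ 0 → h ≠ 0 → X g ≠ X h →
    (X (g + h) + X (g - h)) * (X g - X h) ^ 2
      = 2 * (X g + X h) * (X g * X h + b) + a * (X g * X h)
  prod : ∀ g h, g ≠ 0 → h ≠ 0 → X g ≠ X h →
    X (g + h) * X (g - h) * (X g - X h) ^ 2 = (X g * X h - b) ^ 2
  dbl : ∀ g, g ≠ 0 → g + g ≠ 0 →
    X (g + g) * (X g * (4 * X g ^ 2 + a * X g + 4 * b)) = (X g ^ 2 - b) ^ 2
  dbl_zero : ∀ g, g ≠ 0 → g + g = 0 → X g * (4 * X g ^ 2 + a * X g + 4 * b) = 0

variable {X : G → L} {a b : L} (hX : IsXMap X a b) (v : Valuation L Γ)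

include hX in
lemma IsXMap.add_ne {g h : G} (hne : X g ≠ X h) : g + h ≠ 0 := by
  intro h0
  apply hne
  have : g = -h := eq_neg_of_add_eq_zero_left h0
  rw [this, hX.neg]

include hX in
lemma IsXMap.sub_ne {g h : G} (hne : X g ≠ X h) : g - h ≠ 0 := by
  intro h0
  apply hne
  rw [sub_eq_zero.mp h0]

/-- kernel of reduction -/
def E1 (X : G → L) (v : Valuation L Γ) (g : G) : Prop := g = 0 ∨ 1 < v (X g)

open Classical in
/-- the parameter `1/X`. -/
noncomputable def tau (X : G → L) (g : G) : L := if g = 0 then 0 else (X g)⁻¹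

lemma tau_zero : tau X (0 : G) = 0 := by simp [tau]

lemma tau_of_ne {g : G} (hg : g ≠ 0) : tau X g = (X g)⁻¹ := by simp [tau, hg]

include hX in
lemma IsXMap.tau_neg (g : G) : tau X (-g) = tau X g := by
  by_cases hg : g = 0
  · simp [hg]
  · rw [tau_of_ne hg, tau_of_ne (neg_ne_zero.mpr hg), hX.neg]

include hX in
lemma IsXMap.E1_neg {g : G} (hg : E1 X v g) : E1 X v (-g) := by
  rcases hg with rfl | hg
  · left; simp
  · right; rwa [hX.neg]

section K

variable {v}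
variable (ha : v a ≤ 1) (hb : v b ≤ 1) (h2 : v 2 = 1) (hint : ∀ n : ℕ, v (n : L) ≤ 1)

include hX ha hb h2 hint in
/-- doubling in the kernel of reduction -/
lemma IsXMap.E1_dbl {P : G} (hP0 : P ≠ 0) (hP : 1 < v (X P)) :
    P + P ≠ 0 ∧ 1 < v (X (P + P)) ∧
      v (tau X (P + P) - 4 * tau X P) ≤ v (tau X P) * v (tau X P) := by
  have hc0 : X P ≠ 0 := by
    intro h; rw [h, map_zero] at hP; exact not_lt_of_ge zero_le hP
  obtain ⟨e, he⟩ := exists_EQ (v := v) hc0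
  have he0 : e < 0 := he.one_lt_iff.mp hP
  set c := X P with hc
  have ha' : GE v a 0 := GE_zero_iff.mpr ha
  have hb' : GE v b 0 := GE_zero_iff.mpr hb
  have h2' : EQ v 2 0 := EQ_zero_iff.mpr h2
  have h4' : EQ v 4 0 := by
    have := h2'.mul h2'
    norm_num at this; exact this
  have h12 : GE v 12 0 := GE_zero_iff.mpr (by simpa using hint 12)
  -- c^2 - b
  have hN : EQ v (c ^ 2 - b) (e + e) := he.sq.sub_of_GE hb' (by grind)
  -- 4 c^2 + a c + 4 b
  have hD : EQ v (4 * c ^ 2 + a * c + 4 * b) (e + e) := by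
    have h1 : EQ v (4 * c ^ 2) (0 + (e + e)) := h4'.mul he.sq
    have h3 : GE v (a * c) (0 + e) := ha'.mul he.ge
    have h4 : GE v (4 * b) (0 + 0) := h4'.ge.mul hb'
    have h5 := h1.add_of_GE h3 (by grind)
    have h6 := h5.add_of_GE h4 (by grind)
    simpa using h6
  have hd : EQ v (c * (4 * c ^ 2 + a * c + 4 * b)) (e + (e + e)) := he.mul hD
  have hPP : P + P ≠ 0 := fun h => hd.ne_zero (hX.dbl_zero P hP0 h)
  have hdbl := hX.dbl P hP0 hPP
  rw [← hc] at hdbl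
  have hXPP : X (P + P) = (c ^ 2 - b) ^ 2 / (c * (4 * c ^ 2 + a * c + 4 * b)) := by
    rw [eq_div_iff hd.ne_zero, hdbl]
  have hE : EQ v (X (P + P)) ((e + e) + (e + e) - (e + (e + e))) := by
    rw [hXPP]; exact hN.sq.div hd
  refine ⟨hPP, hE.one_lt_iff.mpr (by grind), ?_⟩
  rw [tau_of_ne hPP, tau_of_ne hP0, ← hc, hXPP]
  have hid : ((c ^ 2 - b) ^ 2 / (c * (4 * c ^ 2 + a * c + 4 * b)))⁻¹ - 4 * c⁻¹
      = (a * c ^ 3 + 12 * (b * c ^ 2) - 4 * b ^ 2) / (c * (c ^ 2 - b) ^ 2) := by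
    have h1 := hN.ne_zero
    have h3 := hD.ne_zero
    field_simp
    ring
  rw [hid]
  have hnum : GE v (a * c ^ 3 + 12 * (b * c ^ 2) - 4 * b ^ 2) (e + e + e) := by
    have h1 : GE v (a * c ^ 3) (0 + (e + (e + e))) := by
      have : c ^ 3 = c * c ^ 2 := by ring
      rw [this]; exact ha'.mul (he.ge.mul he.sq.ge)
    have h3 : GE v (12 * (b * c ^ 2)) (0 + (0 + (e + e))) := h12.mul (hb'.mul he.sq.ge)
    have h4 : GE v (4 * b ^ 2) (0 + (0 + 0)) := h4'.ge.mul hb'.sq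
    exact ((h1.mono (by grind)).add (h3.mono (by grind))).sub (h4.mono (by grind))
  have hden : EQ v (c * (c ^ 2 - b) ^ 2) (e + ((e + e) + (e + e))) := he.mul hN.sq
  have hq := hnum.div hden
  have hr : EQ v (c⁻¹ * c⁻¹) (-e + -e) := he.inv.mul he.inv
  rw [← map_mul]
  exact (GE_iff_of_EQ hr).mp (hq.mono (by grind))

include hX ha hb h2 in
/-- generic addition in the kernel of reduction -/
lemma IsXMap.E1_add_generic {Q P : G} (hQ0 : Q ≠ 0) (hP0 : P ≠ 0) (hQ : 1 < v (X Q))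
    (hP : 1 < v (X P)) (hne : X Q ≠ X P) :
    1 < v (X (Q + P)) ∧ 1 < v (X (Q - P)) ∧
      v (tau X (Q + P) + tau X (Q - P) - 2 * tau X Q - 2 * tau X P)
        ≤ v (tau X Q) * v (tau X P) := by
  have hx0 : X Q ≠ 0 := by
    intro h; rw [h, map_zero] at hQ; exact not_lt_of_ge zero_le hQ
  have hc0 : X P ≠ 0 := by
    intro h; rw [h, map_zero] at hP; exact not_lt_of_ge zero_le hP
  obtain ⟨e₁, he₁⟩ := exists_EQ (v := v) hx0
  obtain ⟨e₂, he₂⟩ := exists_EQ (v := v) hc0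
  have he₁0 : e₁ < 0 := he₁.one_lt_iff.mp hQ
  have he₂0 : e₂ < 0 := he₂.one_lt_iff.mp hP
  have hS := hX.sum Q P hQ0 hP0 hne
  have hPr := hX.prod Q P hQ0 hP0 hne
  have hadd := hX.add_ne hne
  have hsub := hX.sub_ne hne
  rw [tau_of_ne hadd, tau_of_ne hsub, tau_of_ne hQ0, tau_of_ne hP0]
  set x := X Q with hx
  set c := X P with hc
  set r₁ := X (Q + P) with hr₁
  set r₂ := X (Q - P) with hr₂
  have ha' : GE v a 0 := GE_zero_iff.mpr ha
  have hb' : GE v b 0 := GE_zero_iff.mpr hb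
  have h2' : EQ v 2 0 := EQ_zero_iff.mpr h2
  have hxc : EQ v (x * c) (e₁ + e₂) := he₁.mul he₂
  have hN : EQ v (x * c - b) (e₁ + e₂) := hxc.sub_of_GE hb' (by grind)
  have hN' : GE v (x * c + b) (e₁ + e₂) := hxc.ge.add (hb'.mono (by grind))
  have hd0 : x - c ≠ 0 := sub_ne_zero.mpr hne
  have hD : GE v (x - c) (min e₁ e₂) :=
    (he₁.ge.mono (min_le_left _ _)).sub (he₂.ge.mono (min_le_right _ _))
  have hD' : GE v (x + c) (min e₁ e₂) :=
    (he₁.ge.mono (min_le_left _ _)).add (he₂.ge.mono (min_le_right _ _))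
  have hNS : GE v (2 * (x + c) * (x * c + b) + a * (x * c)) (min e₁ e₂ + (e₁ + e₂)) := by
    have h1 : GE v (2 * (x + c) * (x * c + b)) (0 + min e₁ e₂ + (e₁ + e₂)) :=
      (h2'.ge.mul hD').mul hN'
    have h3 : GE v (a * (x * c)) (0 + (e₁ + e₂)) := ha'.mul hxc.ge
    exact (h1.mono (by grind)).add (h3.mono (by grind))
  have hr12 : r₁ * r₂ ≠ 0 := by
    intro h
    rw [h, zero_mul] at hPr
    exact hN.sq.ne_zero hPr.symm
  have hr1 : r₁ ≠ 0 := left_ne_zero_of_mul hr12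
  have hr2 : r₂ ≠ 0 := right_ne_zero_of_mul hr12
  obtain ⟨f₁, hf₁⟩ := exists_EQ (v := v) hr1
  obtain ⟨f₂, hf₂⟩ := exists_EQ (v := v) hr2
  -- sum and product of inverses
  have hsum : r₁⁻¹ + r₂⁻¹ = (2 * (x + c) * (x * c + b) + a * (x * c)) / (x * c - b) ^ 2 := by
    have := hN.ne_zero
    field_simp
    linear_combination (-(r₁ + r₂)) * hPr + (r₁ * r₂) * hS
  have hprod : r₁⁻¹ * r₂⁻¹ = (x - c) ^ 2 / (x * c - b) ^ 2 := by
    have := hN.ne_zero
    field_simp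
    linear_combination (-1 : L) * hPr
  have hsumGE : GE v (r₁⁻¹ + r₂⁻¹) (min e₁ e₂ + (e₁ + e₂) - ((e₁ + e₂) + (e₁ + e₂))) := by
    rw [hsum]; exact hNS.div hN.sq
  have hprodGE : GE v (r₁⁻¹ * r₂⁻¹) (min e₁ e₂ + min e₁ e₂ - ((e₁ + e₂) + (e₁ + e₂))) := by
    rw [hprod]; exact hD.sq.div hN.sq
  have hff : min e₁ e₂ + min e₁ e₂ - ((e₁ + e₂) + (e₁ + e₂)) ≤ -f₁ + -f₂ :=
    hprodGE.le_of_EQ (hf₁.inv.mul hf₂.inv)
  have hf₁0 : f₁ < 0 := by
    by_contra hcon
    have hlt : -f₁ < -f₂ := by grind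
    have := hsumGE.le_of_EQ (hf₁.inv.add_of_GE hf₂.inv.ge hlt)
    grind
  have hf₂0 : f₂ < 0 := by
    by_contra hcon
    have hlt : -f₂ < -f₁ := by grind
    have := hsumGE.le_of_EQ (hf₂.inv.add_of_GE' hf₁.inv.ge hlt)
    grind
  refine ⟨hf₁.one_lt_iff.mpr hf₁0, hf₂.one_lt_iff.mpr hf₂0, ?_⟩
  have hid : r₁⁻¹ + r₂⁻¹ - 2 * x⁻¹ - 2 * c⁻¹
      = (2 * (x + c) * (b * (3 * (x * c) - b)) + a * (x * c) ^ 2) / (x * c * (x * c - b) ^ 2) := by
    rw [hsum]
    have := hN.ne_zero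
    field_simp
    ring
  rw [hid]
  have h3 : GE v (3 : L) 0 := by
    have h1 : GE v (1 : L) 0 := GE_zero_iff.mpr (by simp)
    have := h2'.ge.add h1
    norm_num at this; exact this
  have hnum : GE v (2 * (x + c) * (b * (3 * (x * c) - b)) + a * (x * c) ^ 2)
      ((e₁ + e₂) + (e₁ + e₂)) := by
    have h1 : GE v (3 * (x * c) - b) (e₁ + e₂) :=
      ((h3.mul hxc.ge).mono (by grind)).sub (hb'.mono (by grind))
    have h4 : GE v (2 * (x + c) * (b * (3 * (x * c) - b))) (0 + min e₁ e₂ + (0 + (e₁ + e₂))) :=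
      (h2'.ge.mul hD').mul (hb'.mul h1)
    have h5 : GE v (a * (x * c) ^ 2) (0 + ((e₁ + e₂) + (e₁ + e₂))) := ha'.mul hxc.sq.ge
    exact (h4.mono (by grind)).add (h5.mono (by grind))
  have hden : EQ v (x * c * (x * c - b) ^ 2) ((e₁ + e₂) + ((e₁ + e₂) + (e₁ + e₂))) :=
    hxc.mul hN.sq
  have hq := hnum.div hden
  have hr : EQ v (x⁻¹ * c⁻¹) (-e₁ + -e₂) := he₁.inv.mul he₂.inv
  rw [← map_mul]
  exact (GE_iff_of_EQ hr).mp (hq.mono (by grind))

include hX ha hb h2 hint in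
/-- the parallelogram law modulo `tau Q * tau P` in the kernel of reduction -/
lemma IsXMap.E1_parallelogram {Q P : G} (hQ : E1 X v Q) (hP : E1 X v P) :
    E1 X v (Q + P) ∧ E1 X v (Q - P) ∧
      v (tau X (Q + P) + tau X (Q - P) - 2 * tau X Q - 2 * tau X P)
        ≤ v (tau X Q) * v (tau X P) := by
  by_cases hQ0 : Q = 0
  · subst hQ0
    refine ⟨by simpa using hP, by simpa using hX.E1_neg v hP, ?_⟩
    have : tau X (0 + P) + tau X (0 - P) - 2 * tau X 0 - 2 * tau X P = 0 := by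
      rw [zero_add, zero_sub, hX.tau_neg, tau_zero]; ring
    rw [this]; simp
  by_cases hP0 : P = 0
  · subst hP0
    refine ⟨by simpa using hQ, by simpa using hQ, ?_⟩
    have : tau X (Q + 0) + tau X (Q - 0) - 2 * tau X Q - 2 * tau X 0 = 0 := by
      rw [add_zero, sub_zero, tau_zero]; ring
    rw [this]; simp
  have hQ1 : 1 < v (X Q) := hQ.resolve_left hQ0
  have hP1 : 1 < v (X P) := hP.resolve_left hP0
  by_cases hne : X Q = X P
  · obtain ⟨h1, h3, h4⟩ := hX.E1_dbl ha hb h2 hint hP0 hP1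
    rcases hX.inj Q P hQ0 hP0 hne with rfl | rfl
    · refine ⟨Or.inr h3, Or.inl (sub_self _), ?_⟩
      have : tau X (Q + Q) + tau X (Q - Q) - 2 * tau X Q - 2 * tau X Q
          = tau X (Q + Q) - 4 * tau X Q := by
        rw [sub_self, tau_zero]; ring
      rw [this]; exact h4
    · refine ⟨Or.inl (neg_add_cancel _), ?_, ?_⟩
      · have : -P - P = -(P + P) := by abel
        rw [this]; exact hX.E1_neg v (Or.inr h3)
      · have h5 : -P - P = -(P + P) := by abel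
        have : tau X (-P + P) + tau X (-P - P) - 2 * tau X (-P) - 2 * tau X P
            = tau X (P + P) - 4 * tau X P := by
          rw [neg_add_cancel, h5, hX.tau_neg, hX.tau_neg, tau_zero]; ring
        rw [this, hX.tau_neg]; exact h4
  · obtain ⟨h1, h3, h4⟩ := hX.E1_add_generic ha hb h2 hQ0 hP0 hQ1 hP1 hne
    exact ⟨Or.inr h1, Or.inr h3, h4⟩

include hX ha hb h2 hint in
lemma IsXMap.E1_sub {Q P : G} (hQ : E1 X v Q) (hP : E1 X v P) : E1 X v (Q - P) :=
  (hX.E1_parallelogram ha hb h2 hint hQ hP).2.1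

include hX ha hb h2 hint in
/-- multiples in the kernel of reduction -/
lemma IsXMap.E1_nsmul {P : G} (hP0 : P ≠ 0) (hP : 1 < v (X P)) (n : ℕ) :
    (E1 X v (n • P) ∧ v (tau X (n • P) - (n : L) ^ 2 * tau X P) ≤ v (tau X P) * v (tau X P)) ∧
    (E1 X v ((n + 1) • P) ∧
      v (tau X ((n + 1) • P) - ((n + 1 : ℕ) : L) ^ 2 * tau X P) ≤ v (tau X P) * v (tau X P)) := by
  induction n with
  | zero =>
    refine ⟨⟨Or.inl (zero_smul _ _), ?_⟩, ⟨Or.inr (by simpa using hP), ?_⟩⟩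
    · simp [tau_zero]
    · simp
  | succ n ih =>
    refine ⟨ih.2, ?_⟩
    obtain ⟨⟨h1, h1'⟩, ⟨h3, h3'⟩⟩ := ih
    obtain ⟨h4, h5, h6⟩ := hX.E1_parallelogram ha hb h2 hint h3 (Or.inr hP)
    have e1 : (n + 1) • P + P = (n + 1 + 1) • P := by rw [succ_nsmul (n := n + 1)]
    have e2 : (n + 1) • P - P = n • P := by rw [succ_nsmul]; abel
    rw [e1] at h4 h6
    rw [e2] at h6
    refine ⟨h4, ?_⟩
    set t := tau X P with ht
    have hle : v t ≤ 1 := by
      rw [ht, tau_of_ne hP0, map_inv₀]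
      exact inv_le_one_of_one_le₀ hP.le
    have hQt : v (tau X ((n + 1) • P)) ≤ v t := by
      have : tau X ((n + 1) • P)
          = (tau X ((n + 1) • P) - ((n + 1 : ℕ) : L) ^ 2 * t) + ((n + 1 : ℕ) : L) ^ 2 * t := by ring
      rw [this]
      refine (v.map_add _ _).trans (max_le (h3'.trans ?_) ?_)
      · exact mul_le_of_le_one_left' hle
      · rw [map_mul, map_pow]
        exact mul_le_of_le_one_left' (pow_le_one' (hint _) _)
    have h6' : v (tau X ((n + 1 + 1) • P) + tau X (n • P) - 2 * tau X ((n + 1) • P) - 2 * t)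
        ≤ v t * v t := h6.trans (mul_le_mul_left hQt _)
    have key : tau X ((n + 1 + 1) • P) - ((n + 1 + 1 : ℕ) : L) ^ 2 * t
        = (tau X ((n + 1 + 1) • P) + tau X (n • P) - 2 * tau X ((n + 1) • P) - 2 * t)
          - (tau X (n • P) - (n : L) ^ 2 * t)
          + 2 * (tau X ((n + 1) • P) - ((n + 1 : ℕ) : L) ^ 2 * t) := by
      push_cast; ring
    rw [key]
    refine (v.map_add _ _).trans (max_le ((v.map_sub _ _).trans (max_le h6' h1')) ?_)
    rw [map_mul, h2, one_mul]; exact h3'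

include hX ha hb h2 hint in
/-- **The kernel of reduction has no torsion of order prime to the residue characteristic.** -/
theorem IsXMap.integral_of_torsion {P : G} (hP0 : P ≠ 0) {n : ℕ} (hn : v (n : L) = 1)
    (hnP : n • P = 0) : v (X P) ≤ 1 := by
  by_contra hcon
  have hP : 1 < v (X P) := not_le.mp hcon
  have h := (hX.E1_nsmul ha hb h2 hint hP0 hP n).1.2
  rw [hnP, tau_zero, zero_sub, Valuation.map_neg, map_mul, map_pow, hn, one_pow, one_mul] at h
  have ht0 : v (tau X P) ≠ 0 := by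
    rw [tau_of_ne hP0, map_inv₀]
    exact inv_ne_zero (ne_of_gt (lt_trans zero_lt_one hP))
  have hlt : v (tau X P) < 1 := by
    rw [tau_of_ne hP0, map_inv₀]
    exact inv_lt_one_of_one_lt₀ hP
  have : v (tau X P) * v (tau X P) < v (tau X P) := by
    calc v (tau X P) * v (tau X P) < 1 * v (tau X P) :=
          mul_lt_mul_of_pos_right hlt (zero_lt_iff.mpr ht0)
      _ = v (tau X P) := one_mul _
  exact absurd h (not_le.mpr this)

end K

end Fermat.Agent.S05lib
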